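import Fermat.Agent.BigImage.Frey
import Fermat.Agent.EllTorsion.Galois
import Mathlib.FieldTheory.Finite.GaloisField
import Mathlib.LinearAlgebra.Charpoly.BaseChange

/-!
# Residual conditions after extending the coefficient field

Irreducibility over every extension field (on `⊤` or on an index two subgroup) passes to
`baseChangeAlong`, and over a finite field of even degree all characteristic polynomials of a
plane representation over `ZMod p` split.
-/

open Polynomial
open scoped TensorProduct WeierstrassCurve.Affine

noncomputable section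

namespace Fermat.Agent.BigImage

local notation "G_ℚ" => (AlgebraicClosure ℚ) ≃ₐ[ℚ] (AlgebraicClosure ℚ)

section Transfer

variable {k k' : Type} [Field k] [Field k']

/-- No `H`-stable subspace over any extension field. -/
def IrreducibleOver (ρ : ResidualGaloisRep k) (H : Subgroup G_ℚ) : Prop :=
  ∀ (K : Type) [Field K] [Algebra k K] (V : Submodule K (ρ.baseChange K).V),
    (∀ σ ∈ H, ∀ x ∈ V, (ρ.baseChange K).ρ σ x ∈ V) → V = ⊥ ∨ V = ⊤

/-- Irreducibility over every extension field is preserved by extending scalars. -/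
theorem irreducibleOver_baseChangeAlong {ρ : ResidualGaloisRep k} {H : Subgroup G_ℚ}
    (h : IrreducibleOver ρ H) (φ : k →+* k') : IrreducibleOver (ρ.baseChangeAlong φ) H := by
  intro K _ _ V hV
  let : Algebra k k' := φ.toAlgebra
  let : Algebra k K := ((algebraMap k' K).comp φ).toAlgebra
  have : IsScalarTower k k' K := IsScalarTower.of_algebraMap_eq fun _ => rfl
  let e : K ⊗[k'] (k' ⊗[k] ρ.V) ≃ₗ[K] K ⊗[k] ρ.V :=
    TensorProduct.AlgebraTensorModule.cancelBaseChange k k' K K ρ.V
  have he : ∀ (σ : G_ℚ) (x : K ⊗[k'] (k' ⊗[k] ρ.V)),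
      e (((ρ.ρ σ).baseChange k').baseChange K x) = (ρ.ρ σ).baseChange K (e x) := by
    intro σ x
    induction x using TensorProduct.induction_on with
    | zero => simp
    | add a b ha hb => simp only [map_add, ha, hb]
    | tmul m y =>
      induction y using TensorProduct.induction_on with
      | zero => simp
      | add a b ha hb => simp only [TensorProduct.tmul_add, map_add, ha, hb]
      | tmul a n => simp [e]
  let U : Submodule K (K ⊗[k] ρ.V) := Submodule.map e.toLinearMap V
  have hU : ∀ σ ∈ H, ∀ x ∈ U, (ρ.baseChange K).ρ σ x ∈ U := by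
    rintro σ hσ _ ⟨x, hx, rfl⟩
    exact ⟨_, hV σ hσ x hx, he σ x⟩
  rcases h K U hU with hb | ht
  · left
    refine (Submodule.eq_bot_iff V).2 fun x hx => e.injective ?_
    exact ((Submodule.eq_bot_iff U).1 hb _ ⟨x, hx, rfl⟩).trans e.map_zero.symm
  · right
    refine eq_top_iff.2 fun x _ => ?_
    obtain ⟨y, hy, hyx⟩ : e x ∈ U := ht ▸ Submodule.mem_top
    exact e.injective hyx ▸ hy

/-- `IrreducibleOver` at the whole group gives absolute irreducibility. -/
theorem isAbsolutelyIrreducible_of_irreducibleOver {ρ : ResidualGaloisRep k}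
    (h : IrreducibleOver ρ ⊤) : ρ.IsAbsolutelyIrreducible :=
  fun V hV => h (AlgebraicClosure k) V fun σ _ => hV σ

end Transfer

section Split

variable {p : ℕ} [Fact p.Prime]

/-- A monic quadratic over `ZMod p` splits in a finite field of even degree. -/
theorem exists_eq_mul_of_even_finrank {F : Type} [Field F] [Finite F] [Algebra (ZMod p) F]
    (hF : 2 ∣ Module.finrank (ZMod p) F) {f : (ZMod p)[X]} (hf : f.Monic) (hd : f.natDegree = 2) :
    ∃ α β : F, f.map (algebraMap (ZMod p) F) = (X - C α) * (X - C β) := by
  obtain ⟨α, hα⟩ : ∃ α : F, (f.map (algebraMap (ZMod p) F)).IsRoot α := by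
    by_cases hirr : Irreducible f
    · have := Fact.mk hirr
      have h2 : Module.finrank (ZMod p) (AdjoinRoot f) = 2 := by
        rw [(AdjoinRoot.powerBasis hf.ne_zero).finrank, AdjoinRoot.powerBasis_dim, hd]
      obtain ⟨g⟩ := FiniteField.nonempty_algHom_of_finrank_dvd (F := ZMod p) (K := AdjoinRoot f)
        (L := F) (h2 ▸ hF)
      refine ⟨g (AdjoinRoot.root f), ?_⟩
      rw [IsRoot, eval_map, ← aeval_def, aeval_algHom_apply, AdjoinRoot.aeval_eq,
        AdjoinRoot.mk_self, map_zero]
    · obtain ⟨a, b, hab⟩ := (hf.not_irreducible_iff_exists_add_mul_eq_coeff hd).1 hirr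
      refine ⟨algebraMap (ZMod p) F (-a), ?_⟩
      have h : f.IsRoot (-a) := by
        rw [IsRoot, eval_eq_sum_range, hd, Finset.sum_range_succ, Finset.sum_range_succ,
          Finset.sum_range_succ, Finset.sum_range_zero, show f.coeff 2 = 1 from hd ▸ hf.coeff_natDegree,
          hab.1, hab.2]
        ring
      exact h.map
  refine ⟨α, -(f.map (algebraMap (ZMod p) F)).coeff 1 - α, ?_⟩
  set g := f.map (algebraMap (ZMod p) F) with hg
  have hgm : g.Monic := hf.map _
  have hgd : g.natDegree = 2 := by rw [hg, hf.natDegree_map, hd]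
  have he : g = X ^ 2 + C (g.coeff 1) * X + C (g.coeff 0) := by
    conv_lhs => rw [hgm.as_sum, hgd, Finset.sum_range_succ, Finset.sum_range_succ,
      Finset.sum_range_zero]
    simp only [pow_zero, pow_one, mul_one, zero_add]
    ring
  have h0 : α ^ 2 + g.coeff 1 * α + g.coeff 0 = 0 := by
    have := hα.eq_zero
    rw [he] at this
    simpa using this
  have hc : g.coeff 0 = -(α ^ 2 + g.coeff 1 * α) := eq_neg_of_add_eq_zero_right h0
  conv_lhs => rw [he, hc]
  simp only [map_neg, map_sub, map_add, map_mul, map_pow]
  ring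

end Split

section Curve

open WeierstrassCurve

variable {E : WeierstrassCurve ℚ} [E.IsElliptic] {p : ℕ} [Fact p.Prime]
  {hcard : Nat.card (Submodule.torsionBy ℤ (E⁄(AlgebraicClosure ℚ)).Point p) = p ^ 2}
  {hker : GaloisFactorsThroughFiniteLevel
    (Affine.Point.galoisRepModuleEnd (K := AlgebraicClosure ℚ) ℚ E p)}

/-- `E[p]` irreducible, `p` odd: irreducible over every extension field. -/
theorem residual_irreducibleOver_top (hp2 : p ≠ 2)
    (hirr : Affine.Point.GaloisRepIsIrreducible (K := AlgebraicClosure ℚ) ℚ E p) :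
    IrreducibleOver (E.residualGaloisRepOf p hcard hker) ⊤ := by
  intro K _ _ V hV
  obtain ⟨b, hb0, hb1⟩ := exists_involution_basis (E.residualGaloisRepOf p hcard hker).finrank_eq
    (two_ne_zero_zmod hp2) (f := (E.residualGaloisRepOf p hcard hker).ρ complexConjugation)
    (fun v => by
      rw [← Module.End.mul_apply, ← map_mul, complexConjugation_mul_self, map_one,
        Module.End.one_apply])
    (det_involution E p complexConjugation_mul_self complexConjugation_ne_one)
  exact baseChange_irreducible_of_eigenbasis K (residual_isIrreducible hirr) b hb0 hb1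
    (fun h => two_ne_zero_zmod hp2 (by linear_combination h)) V fun σ => hV σ trivial

/-- The coefficient-extended representation is absolutely irreducible. -/
theorem residual_baseChangeAlong_isAbsolutelyIrreducible (hp2 : p ≠ 2)
    (hirr : Affine.Point.GaloisRepIsIrreducible (K := AlgebraicClosure ℚ) ℚ E p)
    {k' : Type} [Field k'] (φ : ZMod p →+* k') :
    ((E.residualGaloisRepOf p hcard hker).baseChangeAlong φ).IsAbsolutelyIrreducible :=
  isAbsolutelyIrreducible_of_irreducibleOver
    (irreducibleOver_baseChangeAlong (residual_irreducibleOver_top hp2 hirr) φ)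

end Curve

end Fermat.Agent.BigImage
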