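import Fermat.Prelude.Def_GaloisRep_Residual
import Mathlib.GroupTheory.Index
import Mathlib.LinearAlgebra.Determinant
import Mathlib.RingTheory.TensorProduct.Free
import Mathlib.Tactic.LinearCombination
import Mathlib.Tactic.Module

/-!
# Irreducible plane representations with a split element or a transvection

* irreducible with an element having two different rational eigenvalues: absolutely irreducible;
* irreducible with a transvection, `2 ≠ 0`: irreducible on every index two subgroup, over any field;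
* irreducible over `ZMod p` with a transvection in a normal subgroup `H`: `H` maps onto `SL₂`.
-/

open scoped TensorProduct

namespace Fermat.Agent.BigImage

universe uk uK uV uG

section General

variable {k : Type uk} [Field k] {V : Type uV} [AddCommGroup V] [Module k V] {G : Type uG} [Group G]
  {ρ : G →* Module.End k V}

/-- No invariant line or plane other than the trivial ones. -/
def NoStableSubspace (ρ : G →* Module.End k V) : Prop :=
  ∀ W : Submodule k V, (∀ σ : G, ∀ x ∈ W, ρ σ x ∈ W) → W = ⊥ ∨ W = ⊤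

lemma sum_repr_fin_two {R M : Type*} [CommRing R] [AddCommGroup M] [Module R M]
    (b : Module.Basis (Fin 2) R M) (x : M) : b.repr x 0 • b 0 + b.repr x 1 • b 1 = x := by
  conv_rhs => rw [← b.sum_repr x, Fin.sum_univ_two]

/-- An irreducible representation stabilises no basis line. -/
lemma exists_not_mem_span (hirr : NoStableSubspace ρ) (b : Module.Basis (Fin 2) k V) (i : Fin 2) :
    ∃ σ : G, ρ σ (b i) ∉ Submodule.span k {b i} := by
  by_contra hc
  push Not at hc
  have h := hirr (Submodule.span k {b i}) (fun σ x hx => by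
    obtain ⟨c, rfl⟩ := Submodule.mem_span_singleton.1 hx
    rw [map_smul]
    exact Submodule.smul_mem _ _ (hc σ))
  rcases h with h | h
  · exact b.ne_zero i (Submodule.span_singleton_eq_bot.1 h)
  · obtain ⟨j, hj⟩ : ∃ j : Fin 2, j ≠ i := exists_ne i
    obtain ⟨c, hc'⟩ := Submodule.mem_span_singleton.1 (h ▸ (Submodule.mem_top : b j ∈ ⊤))
    have := congrArg (fun x => b.repr x j) hc'
    simp [hj] at this

variable (K : Type uK) [Field K] [Algebra k K]

/-- Descent of membership in a basis line. -/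
lemma mem_span_of_tmul_mem (b : Module.Basis (Fin 2) k V) (i : Fin 2) {x : V}
    (hx : (1 : K) ⊗ₜ[k] x ∈ Submodule.span K {(1 : K) ⊗ₜ[k] b i}) :
    x ∈ Submodule.span k {b i} := by
  obtain ⟨c, hc⟩ := Submodule.mem_span_singleton.1 hx
  have key : ∀ j : Fin 2, j ≠ i → b.repr x j = 0 := fun j hj => by
    have := congrArg (fun y => (Algebra.TensorProduct.basis K b).repr y j) hc
    simp [hj] at this
    exact (map_eq_zero _).1 this.symm
  rw [Submodule.mem_span_singleton]
  refine ⟨b.repr x i, b.ext_elem fun j => ?_⟩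
  rcases eq_or_ne j i with rfl | hj
  · simp
  · simp [hj, key j hj]

/-- With a diagonal element with different eigenvalues, irreducibility persists over every
extension field. -/
theorem baseChange_irreducible_of_eigenbasis (hirr : NoStableSubspace ρ)
    (b : Module.Basis (Fin 2) k V) {g : G} {c₀ c₁ : k} (h₀ : ρ g (b 0) = c₀ • b 0)
    (h₁ : ρ g (b 1) = c₁ • b 1) (hne : c₀ ≠ c₁) (W : Submodule K (K ⊗[k] V))
    (hW : ∀ σ : G, ∀ x ∈ W, (ρ σ).baseChange K x ∈ W) : W = ⊥ ∨ W = ⊤ := by
  set bK := Algebra.TensorProduct.basis K b with hbK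
  have hb : ∀ i, bK i = (1 : K) ⊗ₜ[k] b i := Algebra.TensorProduct.basis_apply b
  have hne' : algebraMap k K c₀ - algebraMap k K c₁ ≠ 0 :=
    sub_ne_zero.2 fun h => hne ((algebraMap k K).injective h)
  have hg : ∀ (i : Fin 2) (c : k), ρ g (b i) = c • b i →
      (ρ g).baseChange K (bK i) = algebraMap k K c • bK i := fun i c h => by
    rw [hb, LinearMap.baseChange_tmul, h, TensorProduct.tmul_smul, algebraMap_smul]
  have split : ∀ w ∈ W, ∀ i, bK.repr w i • bK i ∈ W := fun w hw i => by
    have e := sum_repr_fin_two bK w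
    have hgw : (ρ g).baseChange K w = (bK.repr w 0 * algebraMap k K c₀) • bK 0 +
        (bK.repr w 1 * algebraMap k K c₁) • bK 1 := by
      conv_lhs => rw [← e]
      rw [map_add, map_smul, map_smul, hg 0 c₀ h₀, hg 1 c₁ h₁, smul_smul, smul_smul]
    have hmem : ∀ t : K, (ρ g).baseChange K w - t • w ∈ W := fun t =>
      W.sub_mem (hW g w hw) (W.smul_mem t hw)
    fin_cases i
    · have h := W.smul_mem (algebraMap k K c₀ - algebraMap k K c₁)⁻¹ (hmem (algebraMap k K c₁))
      have key : (ρ g).baseChange K w - algebraMap k K c₁ • w =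
          (algebraMap k K c₀ - algebraMap k K c₁) • (bK.repr w 0 • bK 0) := by
        rw [hgw]; conv_lhs => arg 2; rw [← e]
        module
      rw [key, inv_smul_smul₀ hne'] at h
      exact h
    · have h := W.smul_mem (algebraMap k K c₁ - algebraMap k K c₀)⁻¹ (hmem (algebraMap k K c₀))
      have key : (ρ g).baseChange K w - algebraMap k K c₀ • w =
          (algebraMap k K c₁ - algebraMap k K c₀) • (bK.repr w 1 • bK 1) := by
        rw [hgw]; conv_lhs => arg 2; rw [← e]
        module
      rw [key, inv_smul_smul₀ (by rw [← neg_sub]; exact neg_ne_zero.2 hne')] at h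
      exact h
  by_cases hbot : W = ⊥
  · exact Or.inl hbot
  refine Or.inr (by_contra fun htop => ?_)
  -- some basis line is in `W`, and then the other is not
  have hsome : ∃ i, bK i ∈ W := by
    by_contra hc
    push Not at hc
    refine hbot ((Submodule.eq_bot_iff W).2 fun w hw => bK.ext_elem fun i => ?_)
    simp only [map_zero, Finsupp.zero_apply]
    by_contra hne0
    have := W.smul_mem (bK.repr w i)⁻¹ (split w hw i)
    rw [inv_smul_smul₀ hne0] at this
    exact hc i this
  obtain ⟨i, hi⟩ := hsome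
  have hline : W ≤ Submodule.span K {bK i} := fun w hw => by
    have key : ∀ j, j ≠ i → bK.repr w j = 0 := fun j hj => by
      by_contra hne0
      have := W.smul_mem (bK.repr w j)⁻¹ (split w hw j)
      rw [inv_smul_smul₀ hne0] at this
      refine htop (eq_top_iff.2 (bK.span_eq ▸ Submodule.span_le.2 ?_))
      rintro _ ⟨l, rfl⟩
      rcases eq_or_ne l i with rfl | hl
      · exact hi
      · have : l = j := by omega
        subst this; assumption
    refine Submodule.mem_span_singleton.2 ⟨bK.repr w i, bK.ext_elem fun j => ?_⟩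
    rcases eq_or_ne j i with rfl | hj
    · simp
    · simp [hj, key j hj]
  obtain ⟨σ, hσ⟩ := exists_not_mem_span hirr b i
  refine hσ (mem_span_of_tmul_mem K b i ?_)
  rw [← hb, ← LinearMap.baseChange_tmul, ← hb]
  exact hline (hW σ _ hi)

/-- A basis adapted to a transvection. -/
theorem exists_unipotent_basis (hdim : Module.finrank k V = 2) {f : Module.End k V}
    (hsq : ∀ v, f (f v - v) = f v - v) {v₀ : V} (hv₀ : f v₀ ≠ v₀) :
    ∃ b : Module.Basis (Fin 2) k V, f (b 0) = b 0 ∧ f (b 1) = b 0 + b 1 := by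
  set e := f v₀ - v₀ with he
  have he0 : e ≠ 0 := sub_ne_zero.2 hv₀
  have hfe : f e = e := hsq v₀
  have hli : LinearIndependent k ![e, v₀] := by
    rw [LinearIndependent.pair_iff]
    intro s t hst
    have h2 := congrArg f hst
    rw [map_add, map_smul, map_smul, hfe, map_zero] at h2
    have ht : t • e = 0 := by
      rw [he, smul_sub, ← sub_eq_zero_of_eq (h2.trans hst.symm)]
      abel
    have ht0 : t = 0 := (smul_eq_zero.1 ht).resolve_right he0
    refine ⟨?_, ht0⟩
    rw [ht0, zero_smul, add_zero] at hst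
    exact (smul_eq_zero.1 hst).resolve_right he0
  refine ⟨basisOfLinearIndependentOfCardEqFinrank hli (by simp [hdim]), ?_, ?_⟩
  · simpa using hfe
  · simp [he]

/-- With a transvection and `2 ≠ 0`, irreducibility persists on every index two subgroup and over
every extension field. -/
theorem baseChange_index_two_irreducible (hirr : NoStableSubspace ρ)
    (hdim : Module.finrank k V = 2) (h2 : (2 : k) ≠ 0) {u : G}
    (hsq : ∀ v, ρ u (ρ u v - v) = ρ u v - v) {v₀ : V} (hv₀ : ρ u v₀ ≠ v₀)
    (H : Subgroup G) (hH : H.index = 2) (W : Submodule K (K ⊗[k] V))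
    (hW : ∀ σ ∈ H, ∀ x ∈ W, (ρ σ).baseChange K x ∈ W) : W = ⊥ ∨ W = ⊤ := by
  obtain ⟨b, hb0, hb1⟩ := exists_unipotent_basis hdim hsq hv₀
  have := H.normal_of_index_eq_two hH
  set s := u * u with hs
  have hsH : s ∈ H := Subgroup.mul_self_mem_of_index_two hH u
  have hs0 : ρ s (b 0) = b 0 := by rw [hs, map_mul, Module.End.mul_apply, hb0, hb0]
  have hs1 : ρ s (b 1) = (2 : k) • b 0 + b 1 := by
    rw [hs, map_mul, Module.End.mul_apply, hb1, map_add, hb0, hb1, two_smul, add_assoc]
  set bK := Algebra.TensorProduct.basis K b with hbK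
  have hb : ∀ i, bK i = (1 : K) ⊗ₜ[k] b i := Algebra.TensorProduct.basis_apply b
  have h2K : (2 : K) ≠ 0 := by
    rw [← map_ofNat (algebraMap k K) 2]
    exact (map_ne_zero _).2 h2
  by_cases hbot : W = ⊥
  · exact Or.inl hbot
  refine Or.inr (by_contra fun htop => ?_)
  have hmem : ∀ w ∈ W, (bK.repr w 1 * 2) • bK 0 ∈ W := fun w hw => by
    have e := sum_repr_fin_two bK w
    have h := W.sub_mem (hW s hsH w hw) hw
    have : (ρ s).baseChange K w - w = (bK.repr w 1 * 2) • bK 0 := by
      conv_lhs => arg 1; rw [← e]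
      conv_lhs => arg 2; rw [← e]
      rw [map_add, map_smul, map_smul, hb, hb, LinearMap.baseChange_tmul,
        LinearMap.baseChange_tmul, hs0, hs1, TensorProduct.tmul_add, TensorProduct.tmul_smul,
        ← algebraMap_smul K (2 : k), map_ofNat]
      module
    rwa [this] at h
  have h10 : ∀ w ∈ W, bK.repr w 1 = 0 := fun w hw => by
    by_contra hne
    have h0 : bK 0 ∈ W := by
      have := W.smul_mem (bK.repr w 1 * 2)⁻¹ (hmem w hw)
      rwa [inv_smul_smul₀ (mul_ne_zero hne h2K)] at this
    have h1 : bK 1 ∈ W := by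
      have h := W.smul_mem (bK.repr w 1)⁻¹ (W.sub_mem hw (W.smul_mem (bK.repr w 0) h0))
      have e : w - bK.repr w 0 • bK 0 = bK.repr w 1 • bK 1 :=
        sub_eq_of_eq_add' (sum_repr_fin_two bK w).symm
      rwa [e, inv_smul_smul₀ hne] at h
    refine htop (eq_top_iff.2 (bK.span_eq ▸ Submodule.span_le.2 ?_))
    rintro _ ⟨l, rfl⟩
    fin_cases l <;> assumption
  obtain ⟨w, hw, hw0⟩ := Submodule.exists_mem_ne_zero_of_ne_bot hbot
  have hle : ∀ x ∈ W, x = bK.repr x 0 • bK 0 := fun x hx => by
    conv_lhs => rw [← sum_repr_fin_two bK x]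
    rw [h10 x hx, zero_smul, add_zero]
  have h0 : bK 0 ∈ W := by
    have hne : bK.repr w 0 ≠ 0 := fun h => hw0 (by rw [hle w hw, h, zero_smul])
    have h' : bK.repr w 0 • bK 0 ∈ W := Eq.mp (congrArg (· ∈ W) (hle w hw)) hw
    have := W.smul_mem (bK.repr w 0)⁻¹ h'
    rwa [inv_smul_smul₀ hne] at this
  -- `b 0` spans an `H`-stable line, hence a stable one
  have hH0 : ∀ h ∈ H, ρ h (b 0) ∈ Submodule.span k {b 0} := fun h hh => by
    refine mem_span_of_tmul_mem K b 0 ?_
    rw [← hb, ← LinearMap.baseChange_tmul, ← hb]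
    exact Submodule.mem_span_singleton.2 ⟨_, (hle _ (hW h hh _ h0)).symm⟩
  obtain ⟨g, hg⟩ := exists_not_mem_span hirr b 0
  set x := ρ g (b 0) with hx
  have hx1 : b.repr x 1 ≠ 0 := fun h => hg (Submodule.mem_span_singleton.2
    ⟨b.repr x 0, by conv_rhs => rw [← sum_repr_fin_two b x, h, zero_smul, add_zero]⟩)
  obtain ⟨c, hc⟩ := Submodule.mem_span_singleton.1
    (hH0 (g⁻¹ * s * g) (by simpa [mul_assoc] using (inferInstance : H.Normal).conj_mem s hsH g⁻¹))
  have hsx : ρ s x = c • x := by
    have : ρ g (ρ (g⁻¹ * s * g) (b 0)) = ρ s x := by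
      rw [← Module.End.mul_apply, ← map_mul, hx, ← Module.End.mul_apply, ← map_mul]
      congr 2; group
    rw [← this, ← hc, map_smul]
  have hsx' : ρ s x = (b.repr x 0 + b.repr x 1 * 2) • b 0 + b.repr x 1 • b 1 := by
    conv_lhs => rw [← sum_repr_fin_two b x]
    rw [map_add, map_smul, map_smul, hs0, hs1]
    module
  have h1 := congrArg (fun y => b.repr y 1) (hsx'.symm.trans hsx)
  have h0' := congrArg (fun y => b.repr y 0) (hsx'.symm.trans hsx)
  simp at h1 h0'
  have hc1 : c = 1 := mul_right_cancel₀ hx1 (h1.symm.trans (one_mul _).symm)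
  rw [hc1, one_mul, add_eq_left] at h0'
  exact (mul_ne_zero hx1 h2) h0'

end General

section Involution

variable {k : Type uk} [Field k] {V : Type uV} [AddCommGroup V] [Module k V]

/-- An involution of determinant `-1` of a plane is `diag(1, -1)`. -/
theorem exists_involution_basis (hdim : Module.finrank k V = 2) (h2 : (2 : k) ≠ 0)
    {f : Module.End k V} (hf : ∀ v, f (f v) = v) (hdet : LinearMap.det f = -1) :
    ∃ b : Module.Basis (Fin 2) k V, f (b 0) = (1 : k) • b 0 ∧ f (b 1) = (-1 : k) • b 1 := by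
  obtain ⟨v, hv⟩ : ∃ v, f v + v ≠ 0 := by
    by_contra hc
    push Not at hc
    have : f = (-1 : k) • LinearMap.id := LinearMap.ext fun v => by
      simpa using eq_neg_of_add_eq_zero_left (hc v)
    rw [this, LinearMap.det_smul, hdim, LinearMap.det_id] at hdet
    exact h2 (by linear_combination hdet)
  obtain ⟨w, hw⟩ : ∃ w, w - f w ≠ 0 := by
    by_contra hc
    push Not at hc
    have : f = LinearMap.id := LinearMap.ext fun v => (sub_eq_zero.1 (hc v)).symm
    rw [this, LinearMap.det_id] at hdet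
    exact h2 (by linear_combination hdet)
  set a := f v + v with ha
  set c := w - f w with hc
  have hfa : f a = a := by rw [ha, map_add, hf, add_comm]
  have hfc : f c = -c := by rw [hc, map_sub, hf, neg_sub]
  have hli : LinearIndependent k ![a, c] := by
    rw [LinearIndependent.pair_iff]
    intro s t hst
    have h := congrArg f hst
    rw [map_add, map_smul, map_smul, hfa, hfc, map_zero] at h
    have hs : (2 * s) • a = 0 := by
      have := congrArg₂ (· + ·) hst h
      rw [add_zero] at this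
      rw [← this]; module
    have ht : (2 * t) • c = 0 := by
      have := congrArg₂ (· - ·) hst h
      rw [sub_zero] at this
      rw [← this]; module
    exact ⟨(mul_eq_zero.1 ((smul_eq_zero.1 hs).resolve_right hv)).resolve_left h2,
      (mul_eq_zero.1 ((smul_eq_zero.1 ht).resolve_right hw)).resolve_left h2⟩
  refine ⟨basisOfLinearIndependentOfCardEqFinrank hli (by simp [hdim]), ?_, ?_⟩
  · simpa using hfa
  · simpa using hfc

end Involution

section SL2

variable {p : ℕ} [Fact p.Prime] {V : Type uV} [AddCommGroup V] [Module (ZMod p) V]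
  {G : Type uG} [Group G] {ρ : G →* Module.End (ZMod p) V}

/-- A normal subgroup containing a transvection maps onto the automorphisms of determinant one. -/
theorem exists_mem_map_eq_of_det_eq_one (hirr : NoStableSubspace ρ)
    (hdim : Module.finrank (ZMod p) V = 2) {u : G} (hsq : ∀ v, ρ u (ρ u v - v) = ρ u v - v)
    {v₀ : V} (hv₀ : ρ u v₀ ≠ v₀) (H : Subgroup G) [H.Normal] (hu : u ∈ H)
    {f : Module.End (ZMod p) V} (hf : LinearMap.det f = 1) : ∃ σ ∈ H, ρ σ = f := by
  obtain ⟨b, hb0, hb1⟩ := exists_unipotent_basis hdim hsq hv₀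
  obtain ⟨g, hg⟩ := exists_not_mem_span hirr b 0
  -- the basis of the two fixed vectors
  set e := ρ g (b 0) with he
  have hli : LinearIndependent (ZMod p) ![b 0, e] := by
    rw [LinearIndependent.pair_iff]
    intro s t hst
    have ht : t = 0 := by
      by_contra ht
      refine hg (Submodule.mem_span_singleton.2 ⟨-(s / t), ?_⟩)
      have := congrArg (t⁻¹ • ·) hst
      simp only [smul_add, smul_smul, inv_mul_cancel₀ ht, one_smul, smul_zero] at this
      rw [neg_smul, div_eq_inv_mul]
      exact (eq_neg_of_add_eq_zero_right this).symm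
    refine ⟨?_, ht⟩
    rw [ht, zero_smul, add_zero] at hst
    exact (smul_eq_zero.1 hst).resolve_right (b.ne_zero 0)
  obtain ⟨c, hc⟩ : ∃ c : Module.Basis (Fin 2) (ZMod p) V, ∀ i, c i = ![b 0, e] i :=
    ⟨basisOfLinearIndependentOfCardEqFinrank hli (by simp [hdim]), by simp⟩
  have hc0 : c 0 = b 0 := by simp [hc]
  have hc1 : c 1 = e := by simp [hc]
  set w := g * u * g⁻¹ with hw
  have hwH : w ∈ H := (inferInstance : H.Normal).conj_mem u hu g
  let M : G →* Matrix (Fin 2) (Fin 2) (ZMod p) :=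
    (LinearMap.toMatrixAlgEquiv c : _ →* _).comp ρ
  have hM : ∀ σ, M σ = LinearMap.toMatrix c c (ρ σ) := fun σ => rfl
  have hgi : ρ g⁻¹ e = b 0 := by
    rw [he, ← Module.End.mul_apply, ← map_mul, inv_mul_cancel, map_one, Module.End.one_apply]
  have hMu : M u = !![1, b.repr e 1; 0, 1] := by
    have h1 : ρ u e = b.repr e 1 • c 0 + c 1 := by
      conv_lhs => rw [← sum_repr_fin_two b e]
      rw [map_add, map_smul, map_smul, hb0, hb1, hc0, hc1]
      conv_rhs => arg 2; rw [← sum_repr_fin_two b e]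
      module
    ext i j
    rw [hM, LinearMap.toMatrix_apply]
    fin_cases j <;> fin_cases i <;> simp [hc0, hc1, hb0, h1] <;>
      simp [← hc0, ← hc1]
  set β := b.repr (ρ g⁻¹ (b 0)) 1 with hβ
  have hMw : M w = !![1, 0; β, 1] := by
    have hw0 : ρ w (b 0) = c 0 + β • c 1 := by
      rw [hw, map_mul, map_mul, Module.End.mul_apply, Module.End.mul_apply]
      conv_lhs => arg 2; arg 2; rw [← sum_repr_fin_two b (ρ g⁻¹ (b 0))]
      rw [map_add, map_smul, map_smul, hb0, hb1, hc0, hc1, he, ← hβ]
      have e2 : ρ g (ρ g⁻¹ (b 0)) = b 0 := by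
        rw [← Module.End.mul_apply, ← map_mul, mul_inv_cancel, map_one, Module.End.one_apply]
      conv_rhs => arg 1; rw [← e2, ← sum_repr_fin_two b (ρ g⁻¹ (b 0))]
      simp only [map_add, map_smul, ← hβ]
      module
    have hw1 : ρ w e = c 1 := by
      rw [hw, map_mul, map_mul, Module.End.mul_apply, Module.End.mul_apply, hgi, hb0, hc1]
    ext i j
    rw [hM, LinearMap.toMatrix_apply]
    fin_cases j <;> fin_cases i <;> simp [hc0, hc1, hw0, hw1] <;>
      simp [← hc0, ← hc1]
  have ha0 : b.repr e 1 ≠ 0 := fun h => hg (Submodule.mem_span_singleton.2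
    ⟨b.repr e 0, by conv_rhs => rw [← sum_repr_fin_two b e, h, zero_smul, add_zero]⟩)
  have hb0' : β ≠ 0 := fun h => by
    have h' : ρ g⁻¹ (b 0) = b.repr (ρ g⁻¹ (b 0)) 0 • b 0 := by
      conv_lhs => rw [← sum_repr_fin_two b (ρ g⁻¹ (b 0)), ← hβ, h, zero_smul, add_zero]
    have h'' := congrArg (ρ g) h'
    rw [map_smul, ← Module.End.mul_apply, ← map_mul, mul_inv_cancel, map_one,
      Module.End.one_apply, ← he] at h''
    refine hg (Submodule.mem_span_singleton.2 ⟨(b.repr (ρ g⁻¹ (b 0)) 0)⁻¹, ?_⟩)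
    have hne : b.repr (ρ g⁻¹ (b 0)) 0 ≠ 0 := fun h0 => b.ne_zero 0 (by rw [h'', h0, zero_smul])
    conv_lhs => arg 2; rw [h'']
    rw [inv_smul_smul₀ hne]
  -- elementary matrices
  have hU : ∀ t : ZMod p, ∃ σ ∈ H, M σ = !![1, t; 0, 1] := fun t => by
    refine ⟨u ^ (t / b.repr e 1).val, H.pow_mem hu _, ?_⟩
    have hpow : ∀ m : ℕ, M (u ^ m) = !![1, (m : ZMod p) * b.repr e 1; 0, 1] := by
      intro m
      induction m with
      | zero => rw [pow_zero, map_one]; ext i j; fin_cases i <;> fin_cases j <;> simp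
      | succ m ih => rw [pow_succ, map_mul, ih, hMu]; simp [add_mul, add_comm]
    rw [hpow, ZMod.natCast_zmod_val, div_mul_cancel₀ _ ha0]
  have hL : ∀ t : ZMod p, ∃ σ ∈ H, M σ = !![1, 0; t, 1] := fun t => by
    refine ⟨w ^ (t / β).val, H.pow_mem hwH _, ?_⟩
    have hpow : ∀ m : ℕ, M (w ^ m) = !![1, 0; (m : ZMod p) * β, 1] := by
      intro m
      induction m with
      | zero => rw [pow_zero, map_one]; ext i j; fin_cases i <;> fin_cases j <;> simp
      | succ m ih => rw [pow_succ, map_mul, ih, hMw]; simp [add_mul, add_comm]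
    rw [hpow, ZMod.natCast_zmod_val, div_mul_cancel₀ _ hb0']
  have hgen : ∀ x y z t : ZMod p, x * t - y * z = 1 → z ≠ 0 →
      ∃ σ ∈ H, M σ = !![x, y; z, t] := fun x y z t hd hz => by
    obtain ⟨s₁, hs₁, e₁⟩ := hU ((x - 1) / z)
    obtain ⟨s₂, hs₂, e₂⟩ := hL z
    obtain ⟨s₃, hs₃, e₃⟩ := hU ((t - 1) / z)
    refine ⟨s₁ * s₂ * s₃, H.mul_mem (H.mul_mem hs₁ hs₂) hs₃, ?_⟩
    rw [map_mul, map_mul, e₁, e₂, e₃]
    ext i j
    fin_cases i <;> fin_cases j <;> simp <;> field_simp <;>
      first
        | ring1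
        | linear_combination hd
  set F := LinearMap.toMatrix c c f with hF
  have hd : F 0 0 * F 1 1 - F 0 1 * F 1 0 = 1 := by
    rw [← Matrix.det_fin_two, hF, LinearMap.det_toMatrix, hf]
  obtain ⟨σ, hσ, hσF⟩ : ∃ σ ∈ H, M σ = F := by
    by_cases hz : F 1 0 = 0
    · have ht : F 1 1 ≠ 0 := fun h => by rw [h, hz] at hd; simp at hd
      obtain ⟨s, hs, e⟩ := hgen (F 0 0 + F 0 1) (F 0 1) (F 1 1) (F 1 1)
        (by rw [hz] at hd; linear_combination hd) ht
      obtain ⟨s', hs', e'⟩ := hL (-1)
      refine ⟨s * s', H.mul_mem hs hs', ?_⟩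
      rw [map_mul, e, e', Matrix.eta_fin_two F]
      ext i j
      fin_cases i <;> fin_cases j <;> simp [hz]
    · obtain ⟨s, hs, e⟩ := hgen (F 0 0) (F 0 1) (F 1 0) (F 1 1) hd hz
      exact ⟨s, hs, e.trans (Matrix.eta_fin_two F).symm⟩
  exact ⟨σ, hσ, (LinearMap.toMatrix c c).injective ((hM σ).symm.trans hσF)⟩

end SL2

section Residual

variable {k : Type} [Field k] {ρ : ResidualGaloisRep k}

/-- Irreducible and odd in odd characteristic gives absolutely irreducible. -/
theorem isAbsolutelyIrreducible_of_involution (hirr : ρ.IsIrreducible) (h2 : (2 : k) ≠ 0)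
    {c : AlgebraicClosure ℚ ≃ₐ[ℚ] AlgebraicClosure ℚ} (hc : c * c = 1)
    (hdet : LinearMap.det (ρ.ρ c) = -1) : ρ.IsAbsolutelyIrreducible := by
  have hinv : ∀ v, ρ.ρ c (ρ.ρ c v) = v := fun v => by
    rw [← Module.End.mul_apply, ← map_mul, hc, map_one, Module.End.one_apply]
  obtain ⟨b, h0, h1⟩ := exists_involution_basis ρ.finrank_eq h2 hinv hdet
  intro W hW
  exact baseChange_irreducible_of_eigenbasis (AlgebraicClosure k) hirr b h0 h1
    (fun h => h2 (by linear_combination h)) W hW

/-- Irreducible with a transvection, odd characteristic: the Taylor–Wiles hypothesis. -/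
theorem irreducible_index_two_of_transvection (hirr : ρ.IsIrreducible) (h2 : (2 : k) ≠ 0)
    {u : AlgebraicClosure ℚ ≃ₐ[ℚ] AlgebraicClosure ℚ}
    (hsq : ∀ v, ρ.ρ u (ρ.ρ u v - v) = ρ.ρ u v - v) (hu : ρ.ρ u ≠ 1)
    (K : Type) [Field K] [Algebra k K]
    (G : Subgroup (AlgebraicClosure ℚ ≃ₐ[ℚ] AlgebraicClosure ℚ)) (hG : G.index = 2)
    (V : Submodule K (ρ.baseChange K).V)
    (hV : ∀ σ ∈ G, ∀ x ∈ V, (ρ.baseChange K).ρ σ x ∈ V) : V = ⊥ ∨ V = ⊤ := by
  obtain ⟨v₀, hv₀⟩ : ∃ v, ρ.ρ u v ≠ v := by
    by_contra hc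
    push Not at hc
    exact hu (LinearMap.ext fun v => by simp [hc v])
  exact baseChange_index_two_irreducible K hirr ρ.finrank_eq h2 hsq hv₀ G hG V hV

end Residual

end Fermat.Agent.BigImage
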