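import Fermat.Agent.MultRed.Galois
import Mathlib.RingTheory.RootsOfUnity.AlgebraicallyClosed
import Mathlib.NumberTheory.Cyclotomic.CyclotomicCharacter
import Mathlib.Algebra.Field.GeomSum

/-!
# Involutions and inertia on roots of unity in `ℚ̄`

Every involution `c ≠ 1` of `ℚ̄` inverts all roots of unity (its fixed field is real), and inertia
at `q` fixes the roots of unity of order prime to `q`.
-/

namespace Fermat.Agent.BigImage

local notation "Ω" => AlgebraicClosure ℚ
local notation "G_ℚ" => (AlgebraicClosure ℚ) ≃ₐ[ℚ] (AlgebraicClosure ℚ)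

section Involution

variable {c : G_ℚ}

/-- `x` is the square of a number fixed by `c`. -/
def IsFixedSq (c : G_ℚ) (x : Ω) : Prop := ∃ s, c s = s ∧ s ^ 2 = x

lemma involution_apply (hc : c * c = 1) (x : Ω) : c (c x) = x := by
  rw [← AlgEquiv.mul_apply, hc, AlgEquiv.one_apply]

/-- A nontrivial involution moves a square root of `-1`. -/
lemma involution_sqrt_neg_one (hc : c * c = 1) (hc1 : c ≠ 1) {i : Ω} (hi : i ^ 2 = -1) :
    c i = -i := by
  have h : c i ^ 2 = i ^ 2 := by rw [← map_pow, hi, map_neg, map_one]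
  refine (sq_eq_sq_iff_eq_or_eq_neg.1 h).resolve_left fun hfix => ?_
  obtain ⟨x, hx⟩ : ∃ x, c x ≠ x := by
    by_contra! hh
    exact hc1 (AlgEquiv.ext hh)
  set d := x - c x with hd
  have hcd : c d = -d := by rw [hd, map_sub, involution_apply hc, neg_sub]
  obtain ⟨w, hw⟩ := IsAlgClosed.exists_pow_nat_eq d two_pos
  have h2 : c w ^ 2 = (i * w) ^ 2 := by rw [← map_pow, hw, hcd, mul_pow, hi, hw, neg_one_mul]
  have h3 : c (c w) = -w := by
    rcases sq_eq_sq_iff_eq_or_eq_neg.1 h2 with h | h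
    · rw [h, map_mul, hfix, h]; linear_combination w * hi
    · rw [h, map_neg, map_mul, hfix, h]; linear_combination w * hi
  rw [involution_apply hc, eq_neg_iff_add_eq_zero, add_self_eq_zero] at h3
  rw [h3, zero_pow two_ne_zero] at hw
  exact hx (sub_eq_zero.1 hw.symm).symm

lemma isFixedSq_add (hc : c * c = 1) (hc1 : c ≠ 1) {x y : Ω} (hx : IsFixedSq c x)
    (hy : IsFixedSq c y) : IsFixedSq c (x + y) := by
  obtain ⟨a, ha, rfl⟩ := hx
  obtain ⟨b, hb, rfl⟩ := hy
  obtain ⟨i, hi⟩ := IsAlgClosed.exists_pow_nat_eq (-1 : Ω) two_pos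
  obtain ⟨z, hz⟩ := IsAlgClosed.exists_pow_nat_eq (a + b * i) two_pos
  refine ⟨z * c z, ?_, ?_⟩
  · rw [map_mul, involution_apply hc, mul_comm]
  · rw [mul_pow, ← map_pow, hz, map_add, map_mul, ha, hb, involution_sqrt_neg_one hc hc1 hi]
    linear_combination -(b ^ 2) * hi

lemma not_isFixedSq_neg_one (hc : c * c = 1) (hc1 : c ≠ 1) : ¬ IsFixedSq c (-1 : Ω) := by
  rintro ⟨s, hs, hs2⟩
  rw [involution_sqrt_neg_one hc hc1 hs2, neg_eq_iff_add_eq_zero, add_self_eq_zero] at hs
  rw [hs, zero_pow two_ne_zero, zero_eq_neg] at hs2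
  exact one_ne_zero hs2

/-- A nontrivial involution of `ℚ̄` inverts every root of unity. -/
theorem involution_root_of_unity (hc : c * c = 1) (hc1 : c ≠ 1) {μ : Ω} {n : ℕ} (hn : n ≠ 0)
    (hμ : μ ^ n = 1) : c μ = μ⁻¹ := by
  refine eq_inv_of_mul_eq_one_right (?_ : μ * c μ = 1)
  set m := μ * c μ with hm
  obtain ⟨z, hz⟩ := IsAlgClosed.exists_pow_nat_eq μ two_pos
  have hsq : ∀ j : ℕ, IsFixedSq c (m ^ j) := fun j => by
    refine ⟨(z * c z) ^ j, ?_, ?_⟩
    · rw [map_pow, map_mul, involution_apply hc, mul_comm]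
    · rw [pow_right_comm, mul_pow, ← map_pow, hz]
  have hmn : m ^ n = 1 := by rw [hm, mul_pow, ← map_pow, hμ, map_one, one_mul]
  by_contra hne
  have hsum : ∑ j ∈ Finset.range n, m ^ j = 0 := by
    have := geom_sum_mul m n
    rw [hmn, sub_self, mul_eq_zero] at this
    exact this.resolve_right (sub_ne_zero.2 hne)
  obtain ⟨k, rfl⟩ := Nat.exists_eq_succ_of_ne_zero hn
  rw [Finset.sum_range_succ', pow_zero, add_eq_zero_iff_eq_neg] at hsum
  refine not_isFixedSq_neg_one hc hc1 (hsum ▸ ?_)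
  have h0 : IsFixedSq c 0 := ⟨0, map_zero c, zero_pow two_ne_zero⟩
  exact Finset.sum_induction _ (IsFixedSq c) (fun x y => isFixedSq_add hc hc1) h0
    fun j _ => hsq _

/-- The cyclotomic character of a nontrivial involution is `-1`. -/
theorem modularCyclotomicCharacter_involution (hc : c * c = 1) (hc1 : c ≠ 1) {p : ℕ}
    [hp : Fact p.Prime] (hn : Nat.card (rootsOfUnity p Ω) = p) :
    ((modularCyclotomicCharacter Ω hn (c : Ω ≃+* Ω) : (ZMod p)ˣ) : ZMod p) = -1 := by
  have : NeZero (p : Ω) := ⟨Nat.cast_ne_zero.2 hp.out.ne_zero⟩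
  obtain ⟨ζ, hζ⟩ := IsAlgClosed.exists_root _ (Polynomial.degree_cyclotomic_pos p Ω hp.out.pos).ne'
  have hprim : IsPrimitiveRoot ζ p := Polynomial.isRoot_cyclotomic_iff.1 hζ
  set a := ((modularCyclotomicCharacter Ω hn (c : Ω ≃+* Ω) : (ZMod p)ˣ) : ZMod p) with ha
  have hspec : c ζ = ζ ^ a.val := by
    have hu : (hprim.isUnit hp.out.ne_zero).unit ∈ rootsOfUnity p Ω :=
      (mem_rootsOfUnity' _ _).2 (by simpa using hprim.pow_eq_one)
    simpa using modularCyclotomicCharacter.spec Ω hn (c : Ω ≃+* Ω) hu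
  rw [involution_root_of_unity hc hc1 hp.out.ne_zero hprim.pow_eq_one] at hspec
  have hd : p ∣ a.val + 1 := hprim.dvd_of_pow_eq_one _ (by
    rw [pow_succ, ← hspec, inv_mul_cancel₀ (hprim.ne_zero hp.out.ne_zero)])
  have h := (CharP.cast_eq_zero_iff (ZMod p) p _).2 hd
  rw [Nat.cast_add, Nat.cast_one, ZMod.natCast_zmod_val] at h
  exact eq_neg_of_add_eq_zero_left h

end Involution

section Inertia

open Fermat.Agent.MultRed

/-- Inertia at `q` fixes the roots of unity of order prime to `q`. -/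
theorem inertia_root_of_unity {A : ValuationSubring Ω} {q n : ℕ} (hq : q.Prime)
    (hA : A.LiesOverPrime q) {σ : G_ℚ} (hσ : σ ∈ A.inertiaSubgroupIn ℚ) (hn : ¬ q ∣ n) {μ : Ω}
    (hμ : μ ^ n = 1) : σ μ = μ := by
  have hn0 : n ≠ 0 := fun h => hn (h ▸ dvd_zero q)
  have hμ0 : μ ≠ 0 := fun h => by rw [h, zero_pow hn0] at hμ; exact zero_ne_one hμ
  have hv : A.valuation μ = 1 :=
    (pow_eq_one_iff_of_nonneg zero_le hn0).1 (by rw [← map_pow, hμ, map_one])
  set η := σ μ / μ with hη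
  have hηn : η ^ n = 1 := by rw [hη, div_pow, ← map_pow, hμ, map_one, div_one]
  have hsmall : A.valuation (η - 1) < 1 := by
    rw [hη, div_sub_one hμ0, map_div₀, hv, div_one]
    exact inertia_residue hσ μ hv.le
  by_contra hne
  have hη1 : η - 1 ≠ 0 := sub_ne_zero.2 fun h => hne (by rwa [hη, div_eq_one_iff_eq hμ0] at h)
  have hsum : ∑ j ∈ Finset.range n, η ^ j = 0 := by
    have := geom_sum_mul η n
    rw [hηn, sub_self, mul_eq_zero] at this
    exact this.resolve_right hη1
  have hdiff : A.valuation (∑ j ∈ Finset.range n, (η ^ j - 1)) < 1 := by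
    refine A.valuation.map_sum_lt one_ne_zero fun j _ => ?_
    rw [← geom_sum_mul η j, map_mul]
    have hηv : A.valuation η = 1 := by
      rw [hη, map_div₀, decomp_isometry (inertia_mem_decomposition hσ), hv, div_one]
    have h1 : A.valuation (∑ i ∈ Finset.range j, η ^ i) ≤ 1 :=
      A.valuation.map_sum_le fun i _ => by rw [map_pow, hηv, one_pow]
    exact lt_of_le_of_lt (mul_le_of_le_one_left zero_le h1) hsmall
  rw [Finset.sum_sub_distrib, hsum, Finset.sum_const, Finset.card_range, zero_sub,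
    Valuation.map_neg, nsmul_one, vnat_eq_one hq hA hn] at hdiff
  exact lt_irrefl _ hdiff

end Inertia

end Fermat.Agent.BigImage
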