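import Fermat.Agent.BigImage.Transvection
import Fermat.Agent.BigImage.Irreducible
import Fermat.Agent.BigImage.RootsOfUnity
import Fermat.Agent.EllFrobenius.Det
import Fermat.Agent.MultRed.Frey
import Fermat.Agent.Frobenius.Exists
import Fermat.Prelude.Def_GaloisRep_ComplexConjugation
import Fermat.Prelude.Def_GaloisRep_LocalConditions
import Fermat.Prelude.Def_FLTPrelim_ModularRep

/-!
# Image of `E[p]`: absolute irreducibility and the Taylor–Wiles hypothesis

For an elliptic curve over `ℚ` with `E[p]` irreducible, `p` odd, the representation is absolutely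
irreducible; if moreover some prime `q ≠ p` of multiplicative reduction has `p ∤ ord_q Δ`, it is
irreducible on all index two subgroups. For the Frey curve `q = 2` qualifies.
-/

open WeierstrassCurve WeierstrassCurve.Affine
open scoped WeierstrassCurve.Affine

noncomputable section

namespace Fermat.Agent.BigImage

local notation "Ω" => AlgebraicClosure ℚ
local notation "G_ℚ" => (AlgebraicClosure ℚ) ≃ₐ[ℚ] (AlgebraicClosure ℚ)

lemma card_rootsOfUnity_qbar (n : ℕ) [NeZero n] : Nat.card (rootsOfUnity n Ω) = n := by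
  have : NeZero (n : Ω) := ⟨Nat.cast_ne_zero.2 (NeZero.ne n)⟩
  obtain ⟨ζ, hζ⟩ := IsAlgClosed.exists_root _
    (Polynomial.degree_cyclotomic_pos n Ω (Nat.pos_of_ne_zero (NeZero.ne n))).ne'
  exact (Polynomial.isRoot_cyclotomic_iff.1 hζ).card_rootsOfUnity

lemma complexConjugation_ne_one : (complexConjugation : G_ℚ) ≠ 1 := by
  intro h
  obtain ⟨i, hi⟩ := IsAlgClosed.exists_pow_nat_eq (-1 : Ω) two_pos
  have h1 := complexEmbedding_complexConjugation i
  rw [h, AlgEquiv.one_apply, eq_comm, Complex.conj_eq_iff_im] at h1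
  have h2 : complexEmbedding i ^ 2 = -1 := by rw [← map_pow, hi, map_neg, map_one]
  have h3 := congrArg Complex.re h2
  simp [sq, h1] at h3
  nlinarith [mul_self_nonneg (complexEmbedding i).re]

section Curve

variable (E : WeierstrassCurve ℚ) [E.IsElliptic] (p : ℕ) [hp : Fact p.Prime]

/-- `det ρ(c) = -1` for every involution. -/
theorem det_involution {c : G_ℚ} (hc : c * c = 1) (hc1 : c ≠ 1) :
    LinearMap.det (Affine.Point.galoisRepModuleEnd (K := Ω) ℚ E p c) = -1 := by
  rw [EllFrobenius.det_galoisRepModuleEnd_rat E p (card_rootsOfUnity_qbar p),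
    modularCyclotomicCharacter_involution hc hc1 (card_rootsOfUnity_qbar p)]

variable {E p} {hcard : Nat.card (Submodule.torsionBy ℤ (E⁄Ω).Point p) = p ^ 2}
  {hker : GaloisFactorsThroughFiniteLevel
    (Affine.Point.galoisRepModuleEnd (K := Ω) ℚ E p)}

omit [E.IsElliptic] in
/-- An irreducible torsion representation has no stable line. -/
lemma noStableSubspace_of_irreducible
    (hirr : Affine.Point.GaloisRepIsIrreducible (K := Ω) ℚ E p) :
    NoStableSubspace (Affine.Point.galoisRepModuleEnd (K := Ω) ℚ E p) :=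
  fun W hW => hirr.2 W hW

omit [E.IsElliptic] in
/-- An irreducible `E[p]` is irreducible as a residual representation. -/
theorem residual_isIrreducible
    (hirr : Affine.Point.GaloisRepIsIrreducible (K := Ω) ℚ E p) :
    (E.residualGaloisRepOf p hcard hker).IsIrreducible :=
  fun W hW => hirr.2 W hW

omit [E.IsElliptic] hp in
lemma two_ne_zero_zmod [Fact p.Prime] (hp2 : p ≠ 2) : (2 : ZMod p) ≠ 0 := fun h => by
  have h2 : ((2 : ℕ) : ZMod p) = 0 := h
  rw [CharP.cast_eq_zero_iff (ZMod p) p] at h2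
  exact hp2 ((Nat.prime_dvd_prime_iff_eq Fact.out Nat.prime_two).1 h2)

/-- Irreducible, `p` odd: absolutely irreducible. -/
theorem residual_isAbsolutelyIrreducible (hp2 : p ≠ 2)
    (hirr : Affine.Point.GaloisRepIsIrreducible (K := Ω) ℚ E p) :
    (E.residualGaloisRepOf p hcard hker).IsAbsolutelyIrreducible :=
  isAbsolutelyIrreducible_of_involution (residual_isIrreducible hirr) (two_ne_zero_zmod hp2)
    complexConjugation_mul_self
    (det_involution E p complexConjugation_mul_self complexConjugation_ne_one)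

/-- The determinant is cyclotomic. -/
theorem residual_detIsCyclotomic :
    (GaloisRepAdic.ofResidualGaloisRep (E.residualGaloisRepOf p hcard hker)).DetIsCyclotomic p := by
  refine ⟨?_, fun n σ a ha => ?_⟩
  · rw [ZMod.natCast_self]; exact zero_mem _
  rcases n with _ | n
  · simp
  have hpn : ((p ^ (n + 1) : ℕ) : ZMod p) = 0 := by
    rw [Nat.cast_pow, ZMod.natCast_self, zero_pow n.succ_ne_zero]
  rw [hpn, Ideal.span_singleton_eq_bot.2 rfl, Ideal.mem_bot, sub_eq_zero]
  show LinearMap.det (Affine.Point.galoisRepModuleEnd (K := Ω) ℚ E p σ) = _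
  rw [EllFrobenius.det_galoisRepModuleEnd_rat E p (card_rootsOfUnity_qbar p)]
  refine (modularCyclotomicCharacter.unique Ω (card_rootsOfUnity_qbar p) (σ : Ω ≃+* Ω)
    (c := (a : ZMod p)) fun t ht => ?_).symm
  have ht1 : (t : Ω) ^ p = 1 := by
    rw [← Units.val_pow_eq_pow_val, (mem_rootsOfUnity _ _).1 ht, Units.val_one]
  have ht2 : (t : Ω) ^ p ^ (n + 1) = 1 := by rw [pow_succ', pow_mul, ht1, one_pow]
  show σ (t : Ω) = _
  rw [ha _ ht2, ZMod.val_natCast]
  exact pow_eq_pow_mod a ht1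

end Curve

section Multiplicative

variable {W : WeierstrassCurve ℤ} {E : WeierstrassCurve ℚ} {p q : ℕ} [hp : Fact p.Prime]

/-- Some element acts on `E[p]` as a transvection. -/
theorem exists_transvection (hWE : W.map (Int.castRingHom ℚ) = E) (hq : q.Prime)
    (hΔ0 : W.Δ ≠ 0) (hΔ : (q : ℤ) ∣ W.Δ) (hc₄ : ¬ (q : ℤ) ∣ W.c₄) (hpq : p ≠ q)
    (hord : ¬ p ∣ padicValInt q W.Δ) :
    ∃ u : G_ℚ,
      (∀ x, Affine.Point.galoisRepModuleEnd (K := Ω) ℚ E p u
          (Affine.Point.galoisRepModuleEnd (K := Ω) ℚ E p u x - x) =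
        Affine.Point.galoisRepModuleEnd (K := Ω) ℚ E p u x - x) ∧
      ∃ x, Affine.Point.galoisRepModuleEnd (K := Ω) ℚ E p u x ≠ x := by
  subst hWE
  obtain ⟨A, hA⟩ := Frobenius.exists_liesOverPrime Ω hq
  obtain ⟨u, -, hsq, P, hP, hPu⟩ := exists_inertia_transvection hq hA hΔ0 hΔ hc₄ hp.out hpq hord
  refine ⟨u, fun x => Subtype.ext ?_,
    ⟨⟨P, (Submodule.mem_torsionBy_iff _ _).2 (by rw [natCast_zsmul]; exact hP)⟩,
      fun h => hPu (congrArg Subtype.val h)⟩⟩
  exact hsq x.1 (by rw [← natCast_zsmul]; exact (Submodule.mem_torsionBy_iff _ _).1 x.2)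

/-- The Taylor–Wiles hypothesis. -/
theorem residual_irreducible_index_two (hWE : W.map (Int.castRingHom ℚ) = E) (hq : q.Prime)
    (hΔ0 : W.Δ ≠ 0) (hΔ : (q : ℤ) ∣ W.Δ) (hc₄ : ¬ (q : ℤ) ∣ W.c₄) (hpq : p ≠ q)
    (hord : ¬ p ∣ padicValInt q W.Δ) (hp2 : p ≠ 2)
    (hirr : Affine.Point.GaloisRepIsIrreducible (K := Ω) ℚ E p)
    {hcard : Nat.card (Submodule.torsionBy ℤ (E⁄Ω).Point p) = p ^ 2}
    {hker : GaloisFactorsThroughFiniteLevel
      (Affine.Point.galoisRepModuleEnd (K := Ω) ℚ E p)}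
    (K : Type) [Field K] [Algebra (ZMod p) K] (G : Subgroup G_ℚ) (hG : G.index = 2)
    (V : Submodule K ((E.residualGaloisRepOf p hcard hker).baseChange K).V)
    (hV : ∀ σ ∈ G, ∀ x ∈ V, ((E.residualGaloisRepOf p hcard hker).baseChange K).ρ σ x ∈ V) :
    V = ⊥ ∨ V = ⊤ := by
  obtain ⟨u, hsq, x, hx⟩ := exists_transvection hWE hq hΔ0 hΔ hc₄ hpq hord
  exact irreducible_index_two_of_transvection (ρ := E.residualGaloisRepOf p hcard hker)
    (residual_isIrreducible hirr) (two_ne_zero_zmod hp2) hsq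
    (fun h => hx (LinearMap.congr_fun h x)) K G hG V hV

end Multiplicative

section Frey

open Fermat.Agent.MultRed

variable (P : FreyPackage)

/-- For the Frey curve, `2` is multiplicative and `p ∤ ord₂ Δ`. -/
theorem not_dvd_padicValInt_two_freyCurveInt_Δ :
    ¬ P.p ∣ padicValInt 2 P.freyCurveInt.Δ := fun h => by
  have e := padicValInt_two_freyCurveInt_Δ P
  have h8 : P.p ∣ 8 := (Nat.dvd_add_iff_right h).2 (e ▸ dvd_mul_of_dvd_left (dvd_mul_left P.p 2) _)
  exact absurd ((Nat.prime_dvd_prime_iff_eq P.pp Nat.prime_two).1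
    (P.pp.dvd_of_dvd_pow (show P.p ∣ 2 ^ 3 from h8))) (by have := P.hp5; omega)

variable [Fact P.p.Prime]

end Frey

end Fermat.Agent.BigImage
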