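import Fermat.Agent.BigImage.Frey
import Fermat.Agent.FreyReducible.InertiaLift
import Fermat.Agent.EllLocal.UnitRoot
import Fermat.Agent.EllLocal.Mult.Structure

/-!
# Index two subgroups for semistable curves, `p ≥ 5`

For a semistable `W` with `W[p]` irreducible, `p ≥ 5`, and multiplicative or good ordinary
reduction at `p`, the mod `p` representation is irreducible on every index two subgroup: otherwise
the quadratic field attached to the subgroup would be unramified everywhere.
-/

open WeierstrassCurve WeierstrassCurve.Affine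
open scoped WeierstrassCurve.Affine TensorProduct

noncomputable section

namespace Fermat.Agent.BigImage

universe uk uK uV uG

section General

variable {k : Type uk} [Field k] {V : Type uV} [AddCommGroup V] [Module k V] [Module.Finite k V]
  {G : Type uG} [Group G] {ρ : G →* Module.End k V} {K : Type uK} [Field K] [Algebra k K]

/-- An element outside an index two subgroup with an invariant line swaps two lines: it is not
trivial, and if it has eigenvalue `1` then its determinant is `-1`. -/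
theorem swap_of_not_mem (hdim : Module.finrank k V = 2)
    (habs : ∀ U : Submodule K (K ⊗[k] V),
      (∀ σ : G, ∀ x ∈ U, (ρ σ).baseChange K x ∈ U) → U = ⊥ ∨ U = ⊤)
    (H : Subgroup G) (hH : H.index = 2) (W : Submodule K (K ⊗[k] V))
    (hW : ∀ σ ∈ H, ∀ x ∈ W, (ρ σ).baseChange K x ∈ W) (hbot : W ≠ ⊥) (htop : W ≠ ⊤)
    {σ : G} (hσ : σ ∉ H) :
    ρ σ ≠ 1 ∧ (LinearMap.det (ρ σ - 1) = 0 → LinearMap.det (ρ σ) = -1) := by
  classical
  set f : Module.End K (K ⊗[k] V) := (ρ σ).baseChange K with hf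
  have hmove : ¬ ∀ x ∈ W, f x ∈ W := by
    intro hst
    refine (habs W fun g x hx => ?_).elim hbot htop
    by_cases hg : g ∈ H
    · exact hW g hg x hx
    · have hgH : σ⁻¹ * g ∈ H := by
        rw [Subgroup.mul_mem_iff_of_index_two hH, inv_mem_iff]
        exact iff_of_false hσ hg
      have := hst _ (hW _ hgH x hx)
      rwa [hf, ← LinearMap.comp_apply, ← LinearMap.baseChange_comp, ← Module.End.mul_eq_comp,
        ← map_mul, mul_inv_cancel_left] at this
  have hρ : ρ σ ≠ 1 := fun h1 => hmove fun x hx => by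
    rw [hf, h1, LinearMap.baseChange_one]; exact hx
  refine ⟨hρ, fun hdet0 => ?_⟩
  obtain ⟨w, hw, hw0⟩ := Submodule.exists_mem_ne_zero_of_ne_bot hbot
  have hdimK : Module.finrank K (K ⊗[k] V) = 2 := by rw [Module.finrank_baseChange, hdim]
  have hWw : W = Submodule.span K {w} := by
    refine (Submodule.eq_of_le_of_finrank_le ((Submodule.span_singleton_le_iff_mem _ _).2 hw) ?_).symm
    rw [finrank_span_singleton hw0]
    have := Submodule.finrank_lt htop
    omega
  have hfw : f w ∉ Submodule.span K {w} := fun hmem => hmove fun x hx => by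
    rw [hWw] at hx ⊢
    obtain ⟨c, rfl⟩ := Submodule.mem_span_singleton.1 hx
    rw [map_smul]
    exact Submodule.smul_mem _ _ hmem
  have hli : LinearIndependent K ![w, f w] := by
    rw [LinearIndependent.pair_iff]
    intro s t hst
    have ht : t = 0 := by
      by_contra ht
      refine hfw (Submodule.mem_span_singleton.2 ⟨-(t⁻¹ * s), ?_⟩)
      have := congrArg (t⁻¹ • ·) hst
      simp only [smul_add, smul_smul, inv_mul_cancel₀ ht, one_smul, smul_zero] at this
      rw [neg_smul]
      exact (eq_neg_of_add_eq_zero_right this).symm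
    refine ⟨?_, ht⟩
    rw [ht, zero_smul, add_zero] at hst
    exact (smul_eq_zero.1 hst).resolve_right hw0
  obtain ⟨b, hb⟩ : ∃ b : Module.Basis (Fin 2) K (K ⊗[k] V), ∀ i, b i = ![w, f w] i :=
    ⟨basisOfLinearIndependentOfCardEqFinrank hli (by simp [hdimK]), by simp⟩
  have hb0 : b 0 = w := by simp [hb]
  have hb1 : b 1 = f w := by simp [hb]
  have hff : f (f w) ∈ W := by
    have := hW _ (Subgroup.mul_self_mem_of_index_two hH σ) w hw
    rw [map_mul, Module.End.mul_eq_comp, LinearMap.baseChange_comp] at this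
    exact this
  rw [hWw] at hff
  obtain ⟨c, hc⟩ := Submodule.mem_span_singleton.1 hff
  have hfb0 : f (b 0) = b 1 := by rw [hb0, hb1]
  have hfb1 : f (b 1) = c • b 0 := by rw [hb0, hb1, hc]
  have hMf : LinearMap.toMatrix b b f = !![0, c; 1, 0] := by
    ext i j
    rw [LinearMap.toMatrix_apply]
    fin_cases j <;> fin_cases i <;> simp [hfb0, hfb1]
  have hdetf : LinearMap.det f = -c := by
    rw [← LinearMap.det_toMatrix b, hMf, Matrix.det_fin_two_of]; ring
  have hdetf1 : LinearMap.det (f - 1) = 1 - c := by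
    have hM1 : LinearMap.toMatrix b b (f - 1) = !![-1, c; 1, -1] := by
      ext i j
      rw [LinearMap.toMatrix_apply, LinearMap.sub_apply, Module.End.one_apply]
      fin_cases j <;> fin_cases i <;> simp [hfb0, hfb1]
    rw [← LinearMap.det_toMatrix b, hM1, Matrix.det_fin_two_of]
    ring
  have h0 : LinearMap.det (f - 1) = 0 := by
    rw [hf, ← LinearMap.baseChange_one (R := k) (A := K) (M := V), ← LinearMap.baseChange_sub,
      LinearMap.det_baseChange, hdet0, map_zero]
  have hc1 : c = 1 := by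
    rw [hdetf1, sub_eq_zero] at h0
    exact h0.symm
  refine (algebraMap k K).injective ?_
  rw [map_neg, map_one, ← LinearMap.det_baseChange, ← hf, hdetf, hc1]

end General

local notation "Ω" => AlgebraicClosure ℚ
local notation "G_ℚ" => (AlgebraicClosure ℚ) ≃ₐ[ℚ] (AlgebraicClosure ℚ)

attribute [local instance] EllLocal.instDecEqKA

local instance isAlgebraicQbar_it : Algebra.IsAlgebraic ℚ (AlgebraicClosure ℚ) :=
  AlgebraicClosure.isAlgebraic ℚ
local instance normalQbar_it : Normal ℚ (AlgebraicClosure ℚ) :=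
  have : IsAlgClosure ℚ (AlgebraicClosure ℚ) := ⟨inferInstance, inferInstance⟩
  IsAlgClosure.normal ℚ (AlgebraicClosure ℚ)

variable {W : WeierstrassCurve ℤ} {p : ℕ} [hp : Fact p.Prime]

local notation "WE" => (WeierstrassCurve.map W (Int.castRingHom ℚ))
local notation "ρp" => Affine.Point.galoisRepModuleEnd (K := AlgebraicClosure ℚ) ℚ
  (W.map (Int.castRingHom ℚ)) p

omit hp in
lemma isElliptic_of_Δ_ne_zero (hΔ0 : W.Δ ≠ 0) : (WE).IsElliptic :=
  ⟨by rw [WeierstrassCurve.map_Δ, eq_intCast]; exact IsUnit.mk0 _ (Int.cast_ne_zero.2 hΔ0)⟩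

/-- A linear map with non-surjective image has determinant zero. -/
lemma det_eq_zero_of_not_mem_range {k : Type*} [Field k] {V : Type*} [AddCommGroup V] [Module k V]
    [Module.Finite k V] {f : Module.End k V} {x : V} (hx : x ∉ LinearMap.range f) :
    LinearMap.det f = 0 := by
  by_contra h
  obtain ⟨y, hy⟩ := ((Module.End.isUnit_iff f).1
    ((LinearMap.isUnit_iff_isUnit_det f).2 (isUnit_iff_ne_zero.2 h))).2 x
  exact hx ⟨y, hy⟩

/-- At a prime `p` of multiplicative reduction inertia has eigenvalue `1` on `E[p]`. -/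
theorem det_inertia_sub_one_of_mult (hΔ0 : W.Δ ≠ 0) (hΔ : (p : ℤ) ∣ W.Δ)
    (hc₄ : ¬ (p : ℤ) ∣ W.c₄) {A : ValuationSubring Ω} (hA : A.LiesOverPrime p)
    {σ : G_ℚ} (hσ : σ ∈ A.inertiaSubgroupIn ℚ) : LinearMap.det (ρp σ - 1) = 0 := by
  have := isElliptic_of_Δ_ne_zero hΔ0
  have := EllTorsion.moduleFinite_torsionBy_rat WE p
  obtain ⟨P, hP, hP0⟩ := EllLocal.Mult.exists_torsion_not_mem
    (⟨hp.out, hA, hΔ0, hΔ, hc₄⟩ : EllLocal.Mult.IsMultAt W A p) hp.out
  refine det_eq_zero_of_not_mem_range (x := ⟨P, (Submodule.mem_torsionBy_iff _ _).2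
    (by rw [natCast_zsmul]; exact hP)⟩) ?_
  rintro ⟨y, hy⟩
  refine hP0 ?_
  have h := congrArg Subtype.val hy
  rw [show P = σ • (y : (WE⁄Ω).Point) - y from h.symm]
  exact MultRed.inertia_sub_inZeroComponentAt hp.out hA hΔ0 hΔ hc₄ hσ y

/-- At a prime `p` of good ordinary reduction inertia has eigenvalue `1` on `E[p]`. -/
theorem det_inertia_sub_one_of_ordinary (hgood : W.IsGoodPrimeFor p) {A : ValuationSubring Ω}
    (hA : A.LiesOverPrime p) (hord : EllLocal.OrdinaryRedAt W A p) {σ : G_ℚ}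
    (hσ : σ ∈ A.inertiaSubgroupIn ℚ) : LinearMap.det (ρp σ - 1) = 0 := by
  have := EllLocal.isElliptic_map_rat hgood
  have := EllTorsion.moduleFinite_torsionBy_rat WE p
  obtain ⟨Q, hQ0, hQ⟩ := hord
  obtain ⟨P, hP, hPQ⟩ := EllLocal.exists_residueRed_eq hp.out hA hgood hp.out.ne_zero hQ
  refine det_eq_zero_of_not_mem_range (x := ⟨P, (Submodule.mem_torsionBy_iff _ _).2
    (by rw [natCast_zsmul]; exact hP)⟩) ?_
  rintro ⟨y, hy⟩
  refine hQ0 ?_
  have h := congrArg Subtype.val hy
  rw [← hPQ, show P = σ • (y : (WE⁄Ω).Point) - y from h.symm, map_sub,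
    EllLocal.residueRed_inertia_smul hp.out hA hgood hσ, sub_self]

variable [(W.map (Int.castRingHom ℚ)).IsElliptic]

lemma det_apply_eq_natCast {σ : G_ℚ} {a : ℕ} (ha : ∀ μ : Ω, μ ^ p = 1 → σ μ = μ ^ a) :
    LinearMap.det (ρp σ) = (a : ZMod p) := by
  have h := (residual_detIsCyclotomic (E := WE) (p := p)
    (hcard := EllTorsion.natCard_torsionBy_rat _ hp.out.ne_zero)
    (hker := EllTorsion.galoisFactorsThroughFiniteLevel_galoisRepModuleEnd _ hp.out.ne_zero)).2 1 σ a
    (by simpa using ha)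
  rw [pow_one, ZMod.natCast_self, Ideal.span_singleton_eq_bot.2 rfl, Ideal.mem_bot,
    sub_eq_zero] at h
  exact h

/-- Inertia at `p` realises the determinant `2`. -/
theorem exists_inertia_det_eq_two (hp2 : p ≠ 2) {A : ValuationSubring Ω}
    (hA : A.LiesOverPrime p) :
    ∃ τ ∈ A.inertiaSubgroupIn ℚ, LinearMap.det (ρp τ) = 2 := by
  classical
  let d : G_ℚ →* (ZMod p)ˣ := (LinearMap.det.comp ρp).toHomUnits
  have hd : ∀ g, ((d g : (ZMod p)ˣ) : ZMod p) = LinearMap.det (ρp g) := fun g => rfl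
  let H := ((A.inertiaSubgroupIn ℚ).map d).comap d
  have : H.Normal := inferInstance
  have htop : H = ⊤ := by
    refine FreyReducible.subgroup_eq_top_of_inertia_le H ?_ fun q hq => ?_
    · obtain ⟨L, hL, hL'⟩ :=
        EllTorsion.galoisFactorsThroughFiniteLevel_galoisRepModuleEnd WE hp.out.ne_zero
      refine ⟨L, hL, fun g hg => ⟨1, one_mem _, Units.ext ?_⟩⟩
      rw [map_one, Units.val_one, hd,
        hL' g ((IntermediateField.mem_fixingSubgroup_iff L g).1 hg), map_one]
    · by_cases hqp : q = p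
      · subst hqp
        exact ⟨A, hA, fun g hg => ⟨g, hg, rfl⟩⟩
      · obtain ⟨B, hB⟩ := Frobenius.exists_liesOverPrime Ω hq
        refine ⟨B, hB, fun g hg => ⟨1, one_mem _, Units.ext ?_⟩⟩
        rw [map_one, Units.val_one, hd, det_apply_eq_natCast (a := 1) (fun μ hμ => by
          rw [pow_one]
          exact inertia_root_of_unity hq hB hg
            (fun h => hqp ((Nat.prime_dvd_prime_iff_eq hq hp.out).1 h)) hμ), Nat.cast_one]
  have : NeZero (p : Ω) := ⟨Nat.cast_ne_zero.2 hp.out.ne_zero⟩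
  obtain ⟨ζ, hζ⟩ := IsAlgClosed.exists_root _
    (Polynomial.degree_cyclotomic_pos p Ω hp.out.pos).ne'
  have hprim : IsPrimitiveRoot ζ p := Polynomial.isRoot_cyclotomic_iff.1 hζ
  have h2 : IsPrimitiveRoot (ζ ^ 2) p := hprim.pow_of_coprime 2
    ((Nat.coprime_primes Nat.prime_two hp.out).2 (Ne.symm hp2))
  obtain ⟨g, hg⟩ := IsConjRoot.exists_algEquiv (K := ℚ) (x := ζ ^ 2) (y := ζ)
    (show minpoly ℚ (ζ ^ 2) = minpoly ℚ ζ by
      rw [← Polynomial.cyclotomic_eq_minpoly_rat h2 hp.out.pos,
        ← Polynomial.cyclotomic_eq_minpoly_rat hprim hp.out.pos])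
  obtain ⟨τ, hτ, hτg⟩ : g ∈ H := htop ▸ Subgroup.mem_top g
  refine ⟨τ, hτ, ?_⟩
  rw [← hd, hτg, hd, det_apply_eq_natCast (a := 2) fun μ hμ => ?_, Nat.cast_ofNat]
  have : NeZero p := ⟨hp.out.ne_zero⟩
  obtain ⟨i, -, rfl⟩ := hprim.eq_pow_of_pow_eq_one hμ
  rw [map_pow, hg, ← pow_mul, ← pow_mul, mul_comm]

/-- Semistable, `p ≥ 5`, `E[p]` irreducible, inertia at `p` with eigenvalue `1` (multiplicative or
good ordinary reduction): irreducible on every index two subgroup. -/
theorem semistable_index_two_irreducible (hΔ0 : W.Δ ≠ 0) (hss : W.IsSemistableModel) (hp5 : 5 ≤ p)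
    (hirr : Affine.Point.GaloisRepIsIrreducible (K := Ω) ℚ WE p)
    (hshape : ∀ A : ValuationSubring Ω, A.LiesOverPrime p → ∀ σ ∈ A.inertiaSubgroupIn ℚ,
      LinearMap.det (ρp σ - 1) = 0)
    {hcard : Nat.card (Submodule.torsionBy ℤ (WE⁄Ω).Point p) = p ^ 2}
    {hker : GaloisFactorsThroughFiniteLevel ρp}
    (K : Type) [Field K] [Algebra (ZMod p) K] (G : Subgroup G_ℚ) (hG : G.index = 2)
    (V : Submodule K (((WE).residualGaloisRepOf p hcard hker).baseChange K).V)
    (hV : ∀ σ ∈ G, ∀ x ∈ V, (((WE).residualGaloisRepOf p hcard hker).baseChange K).ρ σ x ∈ V) :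
    V = ⊥ ∨ V = ⊤ := by
  classical
  by_contra hcon
  push Not at hcon
  have h2 : (2 : ZMod p) ≠ 0 := two_ne_zero_zmod (by omega)
  have hirr' : ((WE).residualGaloisRepOf p hcard hker).IsIrreducible := residual_isIrreducible hirr
  obtain ⟨b, hb0, hb1⟩ := exists_involution_basis ((WE).residualGaloisRepOf p hcard hker).finrank_eq h2
    (f := ((WE).residualGaloisRepOf p hcard hker).ρ complexConjugation) (fun v => by
      rw [← Module.End.mul_apply, ← map_mul, complexConjugation_mul_self, map_one,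
        Module.End.one_apply])
    (det_involution WE p complexConjugation_mul_self complexConjugation_ne_one)
  have habs := baseChange_irreducible_of_eigenbasis K hirr' b hb0 hb1
    (fun h => h2 (by linear_combination h))
  have hswap := fun {σ : G_ℚ} (hσ : σ ∉ G) =>
    swap_of_not_mem (ρ := ((WE).residualGaloisRepOf p hcard hker).ρ) ((WE).residualGaloisRepOf p hcard hker).finrank_eq habs G hG V hV hcon.1 hcon.2 hσ
  have := G.normal_of_index_eq_two hG
  have htop : G = ⊤ := by
    refine FreyReducible.subgroup_eq_top_of_inertia_le G ?_ fun q hq => ?_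
    · obtain ⟨L, hL, hL'⟩ := hker
      refine ⟨L, hL, fun g hg => by_contra fun hgG => (hswap hgG).1 ?_⟩
      exact hL' g ((IntermediateField.mem_fixingSubgroup_iff L g).1 hg)
    obtain ⟨A, hA⟩ := Frobenius.exists_liesOverPrime Ω hq
    refine ⟨A, hA, fun σ hσ => by_contra fun hσG => ?_⟩
    by_cases hqp : q = p
    · rw [hqp] at hA
      obtain ⟨τ, hτ, hτ2⟩ := exists_inertia_det_eq_two (W := W) (by omega) hA
      have hmem : ∀ s ∈ A.inertiaSubgroupIn ℚ, LinearMap.det (((WE).residualGaloisRepOf p hcard hker).ρ s) ≠ -1 → s ∈ G :=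
        fun s hs hne => by_contra fun hsG => hne ((hswap hsG).2 (hshape A hA s hs))
      have h2' : LinearMap.det (((WE).residualGaloisRepOf p hcard hker).ρ τ) = 2 := hτ2
      have hne2 : (2 : ZMod p) ≠ -1 := fun h => by
        have h3 : ((3 : ℕ) : ZMod p) = 0 := by push_cast; linear_combination h
        rw [CharP.cast_eq_zero_iff (ZMod p) p] at h3
        have := Nat.le_of_dvd three_pos h3
        omega
      have hτG : τ ∈ G := hmem τ hτ (by rw [h2']; exact hne2)
      have hdet : LinearMap.det (((WE).residualGaloisRepOf p hcard hker).ρ σ) = -1 := (hswap hσG).2 (hshape A hA σ hσ)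
      have hστ : σ * τ ∈ G := hmem _ (mul_mem hσ hτ) (by
        rw [map_mul, map_mul, hdet, h2']
        intro h
        have h1 : ((1 : ℕ) : ZMod p) = 0 := by push_cast; linear_combination -h
        rw [CharP.cast_eq_zero_iff (ZMod p) p, Nat.dvd_one] at h1
        omega)
      exact hσG (by simpa using mul_mem hστ (inv_mem hτG))
    · have hq' : ¬ q ∣ p := fun h => hqp ((Nat.prime_dvd_prime_iff_eq hq hp.out).1 h)
      refine (hswap hσG).1 ?_
      by_cases hbad : (q : ℤ) ∣ W.Δ
      · by_contra hne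
        refine (irreducible_index_two_of_transvection (ρ := ((WE).residualGaloisRepOf p hcard hker)) hirr' h2
          (u := σ) (fun v => Subtype.ext ?_) hne K G hG V hV).elim hcon.1 hcon.2
        exact MultRed.inertia_unipotent hq hA hΔ0 hbad (hss q hq hbad) hσ hq'
          (by rw [← natCast_zsmul]; exact (Submodule.mem_torsionBy_iff _ _).1 v.2)
      · exact LinearMap.ext fun v => Subtype.ext (MultRed.inertia_smul_eq_of_good hq hA hbad hσ
          hq' (by rw [← natCast_zsmul]; exact (Submodule.mem_torsionBy_iff _ _).1 v.2))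
  rw [htop, Subgroup.index_top] at hG
  exact absurd hG (by decide)

/-- The Frey curve (any exponent): irreducibility of `E[5]` on index two subgroups, unconditionally
(at `5` the curve is multiplicative or good ordinary). -/
theorem frey_five_index_two_irreducible [Fact (Nat.Prime 5)] (P : FreyPackage)
    [(P.freyCurveInt.map (Int.castRingHom ℚ)).IsElliptic]
    (hirr : Affine.Point.GaloisRepIsIrreducible (K := AlgebraicClosure ℚ) ℚ
      (P.freyCurveInt.map (Int.castRingHom ℚ)) 5)
    {hcard : Nat.card (Submodule.torsionBy ℤ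
      ((P.freyCurveInt.map (Int.castRingHom ℚ))⁄(AlgebraicClosure ℚ)).Point (5 : ℕ)) = 5 ^ 2}
    {hker : GaloisFactorsThroughFiniteLevel (Affine.Point.galoisRepModuleEnd
      (K := AlgebraicClosure ℚ) ℚ (P.freyCurveInt.map (Int.castRingHom ℚ)) 5)}
    (K : Type) [Field K] [Algebra (ZMod 5) K]
    (G : Subgroup ((AlgebraicClosure ℚ) ≃ₐ[ℚ] (AlgebraicClosure ℚ))) (hG : G.index = 2)
    (V : Submodule K (((P.freyCurveInt.map (Int.castRingHom ℚ)).residualGaloisRepOf 5 hcard hker
      ).baseChange K).V)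
    (hV : ∀ σ ∈ G, ∀ x ∈ V, (((P.freyCurveInt.map (Int.castRingHom ℚ)).residualGaloisRepOf 5
      hcard hker).baseChange K).ρ σ x ∈ V) : V = ⊥ ∨ V = ⊤ := by
  have hΔ0 := MultRed.freyCurveInt_Δ_ne_zero P
  have hss : P.freyCurveInt.IsSemistableModel := fun q hq h => MultRed.not_dvd_freyCurveInt_c₄ P hq h
  refine semistable_index_two_irreducible hΔ0 hss le_rfl hirr (fun A hA σ hσ => ?_) K G hG V hV
  by_cases h5 : (5 : ℤ) ∣ P.freyCurveInt.Δ
  · exact det_inertia_sub_one_of_mult hΔ0 h5 (MultRed.not_dvd_freyCurveInt_c₄ P Fact.out h5) hA hσ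
  · exact det_inertia_sub_one_of_ordinary h5 hA ((EllLocal.ordinaryRedAt_iff hA h5).2 (EllLocal.freyCurveInt_isGoodOrdinary_five P h5)) hσ

end Fermat.Agent.BigImage
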