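import Fermat.Agent.BigImage.Frey
import Fermat.Prelude.Def_GaloisRep_Adic
import Fermat.Agent.EllLocal.Tate
import Fermat.Agent.EllLocal.Mult.DetPow

/-!
# The first layer of the Tate module

Reduction modulo `p` of the Tate module of an elliptic curve over `ℚ`: the map to `E[p]` is
surjective, semilinear and commutes with the Galois action.
-/

open WeierstrassCurve WeierstrassCurve.Affine
open scoped WeierstrassCurve.Affine

noncomputable section

namespace Fermat.Agent.BigImage

open Fermat.Agent.EllLocal

local notation "Ω" => AlgebraicClosure ℚ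
local notation "G_ℚ" => (AlgebraicClosure ℚ) ≃ₐ[ℚ] (AlgebraicClosure ℚ)

variable {E : WeierstrassCurve ℚ} [E.IsElliptic] {p : ℕ} [hp : Fact p.Prime]

/-- The residue map of `ℤ_[p]`. -/
def modP : ℤ_[p] →+* ZMod p :=
  (ZMod.ringEquivCongr (pow_one p)).toRingHom.comp (PadicInt.toZModPow 1)

/-- The first layer of the Tate module. -/
def projOne : tateModule E p →+ Submodule.torsionBy ℤ (E⁄Ω).Point (p : ℤ) where
  toFun f := ⟨f.1 1, (Submodule.mem_torsionBy_iff _ _).2 (by
    rw [natCast_zsmul]; simpa using (f.2 1).1)⟩
  map_zero' := rfl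
  map_add' _ _ := rfl

omit [E.IsElliptic] in
lemma projOne_smul (a : ℤ_[p]) (f : tateModule E p) : projOne (a • f) = modP a • projOne f := by
  refine Subtype.ext ?_
  rw [show (modP a • projOne f) = (modP a).val • projOne f by
    rw [← Nat.cast_smul_eq_nsmul (ZMod p), ZMod.natCast_zmod_val]]
  show (a • f).1 1 = (modP a).val • f.1 1
  rw [EllLocal.smul_apply]
  congr 1
  simp only [coeffNat, modP, RingHom.comp_apply, RingEquiv.toRingHom_eq_coe, RingHom.coe_coe,
    ZMod.ringEquivCongr_val]

/-- Every `p`-torsion point lifts to the Tate module. -/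
lemma projOne_surjective : Function.Surjective (projOne (E := E) (p := p)) := fun P => by
  obtain ⟨f, hf⟩ := exists_apply_eq (W := E) (p := p) 1 (P := P.1)
    (by rw [pow_one, ← natCast_zsmul]; exact (Submodule.mem_torsionBy_iff _ _).1 P.2)
  exact ⟨f, Subtype.ext hf⟩

/-- Projection to level one is Galois equivariant. -/
lemma projOne_rho (σ : G_ℚ) (f : tateModule E p) :
    projOne ((tateRep E p).ρ σ f) =
      Affine.Point.galoisRepModuleEnd (K := Ω) ℚ E p σ (projOne f) := rfl

end Fermat.Agent.BigImage
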