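import Fermat.Agent.BigImage.Unramified
import Fermat.Agent.MultRed.Galois
import Fermat.Agent.EllTorsion.Galois

/-!
# Nontrivial inertia on torsion at a multiplicative prime

If `W` has multiplicative reduction at `q`, `p ≠ q` is prime and `p ∤ ord_q Δ`, then some inertia
element moves a `p`-torsion point (so, by `MultRed.inertia_unipotent`, it acts as a transvection).
-/

open Polynomial WeierstrassCurve
open scoped WeierstrassCurve.Affine Pointwise

noncomputable section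

namespace Fermat.Agent.BigImage

open Fermat.Agent.MultRed

section DivisionPolynomial

/-- The nodal model over `ℤ[X]`. -/
def nodalUniv : WeierstrassCurve ℤ[X] := ⟨1, 0, 0, 0, X⟩

/-- The nodal cubic over `ℤ`. -/
def nodalCubic : WeierstrassCurve ℤ := ⟨1, 0, 0, 0, 0⟩

lemma preΨ'_nodalCubic_eval_zero : ∀ n : ℕ, 3 ≤ n → (nodalCubic.preΨ' n).eval 0 = 0 := by
  intro n
  induction n using Nat.strong_induction_on with
  | _ n ih =>
    intro hn
    obtain ⟨m, rfl | rfl⟩ := Nat.even_or_odd' n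
    · rcases Nat.lt_or_ge m 3 with hm | hm
      · obtain rfl : m = 2 := by omega
        show (nodalCubic.preΨ' 4).eval 0 = 0
        rw [preΨ'_four, WeierstrassCurve.preΨ₄]
        simp [nodalCubic, WeierstrassCurve.b₂, WeierstrassCurve.b₄, WeierstrassCurve.b₆,
          WeierstrassCurve.b₈]
      · obtain ⟨k, rfl⟩ : ∃ k, m = k + 3 := ⟨m - 3, by omega⟩
        rw [preΨ'_even]
        simp [ih (k + 3) (by omega) (by omega)]
    · rcases Nat.lt_or_ge m 2 with hm | hm
      · obtain rfl : m = 1 := by omega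
        show (nodalCubic.preΨ' 3).eval 0 = 0
        rw [preΨ'_three, WeierstrassCurve.Ψ₃]
        simp [nodalCubic, WeierstrassCurve.b₂, WeierstrassCurve.b₄, WeierstrassCurve.b₆,
          WeierstrassCurve.b₈]
      · obtain ⟨k, rfl⟩ : ∃ k, m = k + 2 := ⟨m - 2, by omega⟩
        rw [preΨ'_odd]
        split_ifs <;> simp [ih (k + 4) (by omega) (by omega), ih (k + 3) (by omega) (by omega)]

/-- `ΨSqₙ` of the nodal cubic vanishes at the node. -/
lemma ΨSq_nodalCubic_eval_zero {n : ℕ} (hn : 2 ≤ n) :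
    (nodalCubic.ΨSq (n : ℤ)).eval 0 = 0 := by
  rw [ΨSq_ofNat]
  rcases hn.eq_or_lt with rfl | hn
  · simp [WeierstrassCurve.Ψ₂Sq, nodalCubic, WeierstrassCurve.b₂, WeierstrassCurve.b₄,
      WeierstrassCurve.b₆]
  · split_ifs <;> simp [preΨ'_nodalCubic_eval_zero n hn]

variable {L : Type*} [Field L] {Γ₀ : Type*} [LinearOrderedCommGroupWithZero Γ₀]
  {v : Valuation L Γ₀}

lemma valuation_eval_intPoly_le {a : L} (ha : v a ≤ 1) (g : ℤ[X]) :
    v (g.eval₂ (Int.castRingHom L) a) ≤ 1 := by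
  induction g using Polynomial.induction_on' with
  | add p q hp hq => rw [eval₂_add]; exact v.map_add_le hp hq
  | monomial n z =>
    rw [eval₂_monomial, map_mul, map_pow]
    refine mul_le_one₀ ?_ zero_le (pow_le_one₀ zero_le ha)
    obtain ⟨k, rfl | rfl⟩ := z.eq_nat_or_neg
    · simpa using vnatCast_le v k
    · simpa using vnatCast_le v k

lemma valuation_ΨSq_nodal_eval_zero {a : L} (ha : v a < 1) {n : ℕ} (hn : 2 ≤ n) :
    v (((nodal a).ΨSq (n : ℤ)).eval 0) < 1 := by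
  set φ : ℤ[X] →+* L := eval₂RingHom (Int.castRingHom L) a with hφ
  have hmap : nodalUniv.map φ = nodal a := by
    ext <;> simp [nodalUniv, nodal, hφ]
  have hmap0 : nodalUniv.map (evalRingHom (0 : ℤ)) = nodalCubic := by
    ext <;> simp [nodalUniv, nodalCubic]
  set g := (nodalUniv.ΨSq (n : ℤ)).coeff 0 with hg
  have hg0 : g.eval 0 = 0 := by
    have := ΨSq_nodalCubic_eval_zero hn
    rw [← hmap0, WeierstrassCurve.map_ΨSq, ← coeff_zero_eq_eval_zero, coeff_map] at this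
    exact this
  obtain ⟨k, hk⟩ : X ∣ g := X_dvd_iff.2 (by rwa [coeff_zero_eq_eval_zero])
  rw [← hmap, WeierstrassCurve.map_ΨSq, ← coeff_zero_eq_eval_zero, coeff_map, ← hg, hk, map_mul,
    map_mul]
  have hX : φ X = a := by simp [hφ]
  have hk1 : v (φ k) ≤ 1 := valuation_eval_intPoly_le ha.le k
  rw [← map_mul, hX]
  exact vmul_lt_left ha hk1

/-- An integral polynomial with unit leading coefficient and small constant term has a small root. -/
lemma exists_small_root [IsAlgClosed L] {f : L[X]} (hlead : v f.leadingCoeff = 1)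
    (h0 : v (f.eval 0) < 1) : ∃ x, f.IsRoot x ∧ v x < 1 := by
  by_contra hc
  push Not at hc
  have hf : f ≠ 0 := fun h => by
    rw [h, leadingCoeff_zero, map_zero] at hlead
    exact zero_ne_one hlead
  rw [(IsAlgClosed.splits f).eval_eq_prod_roots 0, map_mul, hlead, one_mul, map_multiset_prod,
    Multiset.map_map] at h0
  refine absurd h0 (not_lt.2 (Multiset.one_le_prod_of_one_le ?_))
  intro y hy
  obtain ⟨r, hr, rfl⟩ := Multiset.mem_map.1 hy
  simpa using hc r (isRoot_of_mem_roots hr)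

/-- A nodal model has a nonzero `n`-torsion point reducing to the node. -/
theorem exists_torsion_inNode [DecidableEq L] [IsAlgClosed L] {a : L} (ha0 : a ≠ 0) (ha : v a < 1)
    {n : ℕ} (hn : 2 ≤ n) (hvn : v (n : L) = 1) :
    ∃ P : (nodal a).toAffine.Point, InNode v a P ∧ n • P = 0 := by
  have hn0 : ((n : ℤ) : L) ≠ 0 := v.ne_zero_iff.1 (by rw [Int.cast_natCast, hvn]; exact one_ne_zero)
  obtain ⟨x, hx, hvx⟩ := exists_small_root (v := v) (f := (nodal a).ΨSq (n : ℤ))
    (by rw [WeierstrassCurve.leadingCoeff_ΨSq _ hn0, Int.cast_natCast, map_pow, hvn, one_pow])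
    (valuation_ΨSq_nodal_eval_zero ha hn)
  obtain ⟨y, hy⟩ := exists_quadratic_root x (-(x ^ 3 + a))
  have hns : (nodal a).toAffine.Nonsingular x y :=
    (Affine.equation_iff_nonsingular_of_Δ_ne_zero (nodal_Δ_ne_zero (v := v) ha0 ha)).1
      ((nodal_equation a).2 (by linear_combination hy))
  refine ⟨.some x y hns, ⟨hvx, ?_⟩, (EllTorsion.nsmul_eq_zero_iff hns n).2 hx⟩
  have he := (nodal_equation a).1 hns.1
  by_contra hc
  have h1 : v y ≤ 1 := vy_le (intCoeffs_nodal ha) hns.1 hvx.le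
  have hy1 : v y = 1 := le_antisymm h1 (not_lt.1 hc)
  have h2 : v (y * (y + x)) = 1 := by
    rw [map_mul, v.map_add_eq_of_lt_left (by rw [hy1]; exact hvx), hy1, one_mul]
  rw [he] at h2
  refine absurd h2 (ne_of_lt (v.map_add_lt ?_ ha))
  rw [map_pow]
  exact pow_lt_one₀ zero_le hvx three_ne_zero

/-- For a prime `n`, the abscissa of an `n`-torsion point at the node has value `φ` of the point
or of its negative. -/
lemma exists_valuation_x_pow [DecidableEq L] [IsAlgClosed L] {a : L} (ha0 : a ≠ 0) (ha : v a < 1)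
    {n : ℕ} (hnp : n.Prime) (hvn : v (n : L) = 1) {x y : L}
    {h : (nodal a).toAffine.Nonsingular x y} (hN : InNode v a (.some x y h))
    (hnP : n • Affine.Point.some x y h = 0) :
    ∃ j : ℕ, 0 < j ∧ j < n ∧ v x ^ n = v a ^ j := by
  have key : ∀ Q : (nodal a).toAffine.Point, InNode v a Q → n • Q = 0 →
      ∃ j : ℕ, 0 < j ∧ j < n ∧ phi v a Q ^ n = v a ^ j := fun Q hQ hQn =>
    exists_phi_pow ha0 ha hQ hnp.ne_zero (by rw [hQn]; exact inE0_zero)
  rcases node_cases ha0 hN with ⟨e, he⟩ | ⟨e, he⟩ | hm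
  · obtain ⟨j, hj⟩ := key _ hN hnP
    rw [(phi_left he).2] at hj
    exact ⟨j, hj.1, hj.2.1, by rw [he.1]; exact hj.2.2⟩
  · obtain ⟨j, hj⟩ := key _ (inNode_neg.2 hN) (by rw [neg_nsmul, hnP, neg_zero])
    rw [(phi_left he).2] at hj
    rw [Affine.Point.neg_some] at he
    exact ⟨j, hj.1, hj.2.1, by rw [he.1]; exact hj.2.2⟩
  · obtain ⟨j, hj0, hjn, hj⟩ := key _ hN hnP
    have h2 := (phi_mid ha0 ha hm).2
    have hA0 : 0 < v a := lt_of_le_of_ne zero_le (v.ne_zero_iff.2 ha0).symm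
    have heq : n = 2 * j := by
      refine (pow_right_strictAnti₀ hA0 ha).injective ?_
      show v a ^ n = v a ^ (2 * j)
      calc v a ^ n = (phi v a (.some x y h) ^ 2) ^ n := by rw [h2]
        _ = (phi v a (.some x y h) ^ n) ^ 2 := by rw [← pow_mul, ← pow_mul, mul_comm]
        _ = _ := by rw [hj, ← pow_mul, mul_comm]
    obtain rfl : n = 2 := ((Nat.prime_two.eq_one_or_self_of_dvd 2 dvd_rfl).elim
      (fun h => absurd h (by decide)) fun _ =>
        ((Nat.prime_dvd_prime_iff_eq Nat.prime_two hnp).1 ⟨j, heq⟩).symm)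
    obtain rfl : j = 1 := by omega
    refine ⟨1, one_pos, one_lt_two, ?_⟩
    have hyy : Affine.Point.some x y h = -Affine.Point.some x y h := by
      rw [eq_neg_iff_add_eq_zero, ← two_nsmul]; exact hnP
    rw [Affine.Point.neg_some, Affine.Point.some.injEq, nodal_negY] at hyy
    have hxy : x = -(2 * y) := by linear_combination hyy.2
    rw [hxy, Valuation.map_neg, map_mul, show v (2 : L) = 1 by exact_mod_cast hvn, one_mul,
      pow_one]
    exact hm.1

end DivisionPolynomial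

section Inertia

local notation "ℚ̄" => AlgebraicClosure ℚ

variable {W : WeierstrassCurve ℤ} {A : ValuationSubring ℚ̄} {q p : ℕ}

/-- If `q` is a prime of multiplicative reduction, `p ≠ q` is prime and `p ∤ ord_q Δ`, then inertia
at `q` does not fix `E[p]`. -/
theorem exists_inertia_moves_torsion (hq : q.Prime) (hA : A.LiesOverPrime q) (hΔ0 : W.Δ ≠ 0)
    (hΔ : (q : ℤ) ∣ W.Δ) (hc₄ : ¬ (q : ℤ) ∣ W.c₄) (hp : p.Prime) (hpq : p ≠ q)
    (hord : ¬ p ∣ padicValInt q W.Δ) :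
    ∃ σ ∈ A.inertiaSubgroupIn ℚ, ∃ P : ((W.map (Int.castRingHom ℚ))⁄ℚ̄).Point,
      p • P = 0 ∧ σ • P ≠ P := by
  have := Fact.mk hq
  by_contra hcon
  push Not at hcon
  have : (W.map (Int.castRingHom ℚ)).IsElliptic :=
    ⟨by rw [WeierstrassCurve.map_Δ, eq_intCast]; exact IsUnit.mk0 _ (Int.cast_ne_zero.2 hΔ0)⟩
  obtain ⟨D⟩ := exists_nodalData_at hq hA hΔ hc₄
  have ha0 := nodalData_a_ne hΔ0 D
  have ha := nodalData_va_lt hA hΔ D
  have hvp : A.valuation (p : ℚ̄) = 1 :=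
    vnat_eq_one hq hA fun h => hpq ((Nat.prime_dvd_prime_iff_eq hq hp).1 h).symm
  obtain ⟨Q, hQN, hQp⟩ := exists_torsion_inNode (v := A.valuation) ha0 ha hp.two_le hvp
  rcases Q with _ | ⟨x, y, h⟩
  · exact hQN.elim
  obtain ⟨j, hj0, hjp, hxj⟩ := exists_valuation_x_pow ha0 ha hp hvp hQN hQp
  -- abscissae of the torsion points
  set S : Set ℚ̄ := {X | ∃ (Y : ℚ̄) (hXY : ((W.map (Int.castRingHom ℚ))⁄ℚ̄).Nonsingular X Y),
    p • Affine.Point.some X Y hXY = 0} with hSdef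
  have hS : S.Finite := by
    have hfin := EllTorsion.finite_torsionBy_rat (W.map (Int.castRingHom ℚ)) hp.ne_zero
    let f : Submodule.torsionBy ℤ ((W.map (Int.castRingHom ℚ))⁄ℚ̄).Point (p : ℤ) → ℚ̄ :=
      fun T => match (T : ((W.map (Int.castRingHom ℚ))⁄ℚ̄).Point) with
        | .zero => 0
        | .some X _ _ => X
    refine (Set.finite_range f).subset ?_
    rintro X ⟨Y, hXY, hX⟩
    exact ⟨⟨.some X Y hXY, (Submodule.mem_torsionBy_iff _ _).2 (by
      rw [natCast_zsmul]; exact hX)⟩, rfl⟩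
  have hstab : ∀ g : ℚ̄ ≃ₐ[ℚ] ℚ̄, ∀ s ∈ S, g s ∈ S := by
    rintro g X ⟨Y, hXY, hX⟩
    obtain ⟨h', he⟩ := EllTorsion.smul_some g hXY
    refine ⟨g Y, h', ?_⟩
    rw [← he, Affine.Point.algEquiv_smul_def, ← map_nsmul, hX, map_zero]
  have hfix : ∀ σ ∈ A.inertiaSubgroupIn ℚ, ∀ s ∈ S, σ s = s := by
    rintro σ hσ X ⟨Y, hXY, hX⟩
    obtain ⟨h', he⟩ := EllTorsion.smul_some σ hXY
    exact (Affine.Point.some.inj (he.symm.trans (hcon σ hσ _ hX))).1
  have hXS : vcX D.C x ∈ S :=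
    ⟨vcY D.C x y, _, by rw [← nodeMap_some D h, ← map_nsmul, hQp, map_zero]⟩
  -- the value of the abscissa in terms of the integral model
  obtain ⟨hvx, hvy⟩ := hQN
  have hdiff : A.valuation (vcX D.C x - D.C.r) = A.valuation x := by
    rw [show vcX D.C x - D.C.r = (D.C.u : ℚ̄) ^ 2 * x by rw [vcX]; ring, map_mul, map_pow,
      D.hC.u, one_pow, one_mul]
  have hX1 : A.valuation (vcX D.C x) ≤ 1 := by
    rw [show vcX D.C x = (vcX D.C x - D.C.r) + D.C.r by ring]
    exact A.valuation.map_add_le (hdiff.le.trans hvx.le) D.hC.r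
  have hval : A.valuation (6 * vcX D.C x ^ 2 + (curveQbar W).b₂ * vcX D.C x +
      (curveQbar W).b₄) = A.valuation x := by
    rcases D.vx _ hX1 with h1 | ⟨h1, -⟩
    · rw [← h1, hdiff]
    · exact absurd hvx (not_lt.2 (hdiff ▸ h1))
  have hmem : 6 * vcX D.C x ^ 2 + (curveQbar W).b₂ * vcX D.C x + (curveQbar W).b₄ ∈
      IntermediateField.adjoin ℚ S := by
    have hX := IntermediateField.subset_adjoin ℚ S hXS
    have hb : ∀ z : ℤ, (z : ℚ̄) ∈ IntermediateField.adjoin ℚ S := fun z => intCast_mem _ z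
    have e2 : (curveQbar W).b₂ = ((W.b₂ : ℤ) : ℚ̄) := by
      simp [curveQbar, WeierstrassCurve.baseChange]
    have e4 : (curveQbar W).b₄ = ((W.b₄ : ℤ) : ℚ̄) := by
      simp [curveQbar, WeierstrassCurve.baseChange]
    rw [e2, e4, show (6 : ℚ̄) = ((6 : ℤ) : ℚ̄) by norm_num]
    exact add_mem (add_mem (mul_mem (hb _) (pow_mem hX 2)) (mul_mem (hb _) hX)) (hb _)
  have hx0 : A.valuation x ≠ 0 := fun h0 => by
    rw [h0, zero_pow hp.ne_zero] at hxj
    exact ha0 (A.valuation.zero_iff.1 (pow_eq_zero_iff hj0.ne' |>.1 hxj.symm))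
  obtain ⟨k, hk⟩ := exists_valuation_eq_zpow_of_stable hq hA hS hstab hfix hmem
    (fun h0 => hx0 (by rw [← hval, h0, map_zero]))
  rw [hval] at hk
  rw [hk, nodalData_va, vint_eq_pow hq hA hΔ0, ← zpow_natCast, ← zpow_mul, ← pow_mul,
    ← zpow_natCast] at hxj
  have hkey := (zpow_right_strictAnti₀ (vq_pos hq) (vq_lt_one hA)).injective hxj
  have hd : p ∣ padicValInt q W.Δ * j :=
    Int.natCast_dvd_natCast.1 ⟨k, by rw [← hkey, mul_comm]⟩
  rcases hp.dvd_mul.1 hd with h' | h'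
  · exact hord h'
  · exact absurd (Nat.le_of_dvd hj0 h') (not_le.2 hjp)

/-- Inertia at a prime of multiplicative reduction contains a transvection on `E[p]` when
`p ∤ ord_q Δ`. -/
theorem exists_inertia_transvection (hq : q.Prime) (hA : A.LiesOverPrime q) (hΔ0 : W.Δ ≠ 0)
    (hΔ : (q : ℤ) ∣ W.Δ) (hc₄ : ¬ (q : ℤ) ∣ W.c₄) (hp : p.Prime) (hpq : p ≠ q)
    (hord : ¬ p ∣ padicValInt q W.Δ) :
    ∃ σ ∈ A.inertiaSubgroupIn ℚ,
      (∀ P : ((W.map (Int.castRingHom ℚ))⁄ℚ̄).Point, p • P = 0 →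
        σ • (σ • P - P) = σ • P - P) ∧
      ∃ P : ((W.map (Int.castRingHom ℚ))⁄ℚ̄).Point, p • P = 0 ∧ σ • P ≠ P := by
  obtain ⟨σ, hσ, hP⟩ := exists_inertia_moves_torsion hq hA hΔ0 hΔ hc₄ hp hpq hord
  exact ⟨σ, hσ, fun P hPp => inertia_unipotent hq hA hΔ0 hΔ hc₄ hσ
    (fun h => hpq ((Nat.prime_dvd_prime_iff_eq hq hp).1 h).symm) hPp, hP⟩

end Inertia

end Fermat.Agent.BigImage
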