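import Mathlib
import Fermat.Prelude.Def_FLTPrelim_Ramification
import Fermat.Agent.FreyReducible.InertiaLift

/-!
# Values of inertia-fixed elements

If the inertia group of a place `A` of `ℚ̄` over `q` fixes a finite Galois extension `F`, then every
non-zero element of `F` has value an integral power of that of `q`. In particular this applies to
any Galois-stable set of elements fixed by inertia.
-/

open NumberField IsDedekindDomain
open scoped Pointwise NumberField

noncomputable section

namespace Fermat.Agent.BigImage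

open Fermat.Agent.FreyReducible

local notation "Ω" => AlgebraicClosure ℚ
local notation "G_ℚ" => (AlgebraicClosure ℚ) ≃ₐ[ℚ] (AlgebraicClosure ℚ)

local instance isAlgebraicQbar_bi : Algebra.IsAlgebraic ℚ (AlgebraicClosure ℚ) :=
  AlgebraicClosure.isAlgebraic ℚ
local instance isGaloisQbar_bi : IsGalois ℚ (AlgebraicClosure ℚ) :=
  have : IsAlgClosure ℚ (AlgebraicClosure ℚ) := ⟨inferInstance, inferInstance⟩
  IsAlgClosure.isGalois ℚ (AlgebraicClosure ℚ)

/-- Inertia fixing `F` pointwise means `q` is unramified at the prime under `A`. -/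
lemma ramificationIdx_eq_one_of_inertia_fixed {A : ValuationSubring Ω} {q : ℕ} (hq : q.Prime)
    (hA : A.LiesOverPrime q) (F : IntermediateField ℚ Ω) [FiniteDimensional ℚ F] [IsGalois ℚ F]
    (hfix : ∀ σ ∈ A.inertiaSubgroupIn ℚ, ∀ x : F, σ (x : Ω) = x) :
    ((placeIdeal A).under (𝓞 F)).LiesOver (Ideal.span {(q : ℤ)}) ∧
      ((placeIdeal A).under (𝓞 F)).ramificationIdx ℤ = 1 := by
  have : NumberField F := { to_charZero := inferInstance, to_finiteDimensional := inferInstance }
  set P : Ideal (𝓞 F) := (placeIdeal A).under (𝓞 F)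
  have hqP : (q : 𝓞 F) ∈ P := by
    simp only [P, Ideal.mem_comap, map_natCast, mem_placeIdeal]
    exact hA
  have hmax : (Ideal.span {(q : ℤ)}).IsMaximal :=
    PrincipalIdealRing.isMaximal_of_irreducible (Nat.prime_iff_prime_int.mp hq).irreducible
  have hPu : P.under ℤ = Ideal.span {(q : ℤ)} := by
    refine (Ideal.IsMaximal.eq_of_le hmax (Ideal.IsPrime.ne_top inferInstance) ?_).symm
    rw [Ideal.span_le, Set.singleton_subset_iff]
    show algebraMap ℤ (𝓞 F) (q : ℤ) ∈ P
    simpa using hqP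
  have hover : P.LiesOver (Ideal.span {(q : ℤ)}) := ⟨hPu.symm⟩
  refine ⟨hover, ?_⟩
  have : IsGaloisGroup (F ≃ₐ[ℚ] F) ℤ (𝓞 F) :=
    IsGaloisGroup.of_isFractionRing (F ≃ₐ[ℚ] F) ℤ (𝓞 F) ℚ F
  have : Finite (ℤ ⧸ Ideal.span {(q : ℤ)}) :=
    have : NeZero q := ⟨hq.ne_zero⟩
    Finite.of_equiv _ (Int.quotientSpanNatEquivZMod q).symm.toEquiv
  have : Finite (Ideal.span {(q : ℤ)}).ResidueField :=
    Finite.of_surjective _ (Ideal.bijective_algebraMap_quotient_residueField _).2
  have hbot : P.inertia (F ≃ₐ[ℚ] F) = ⊥ := by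
    rw [eq_bot_iff]
    intro g hg
    obtain ⟨σ, hσ, hσg⟩ := exists_mem_inertiaSubgroupIn_extending hq.ne_zero hA F g fun b => by
      have h := hg b
      change g • b - b ∈ P at h
      exact mem_placeIdeal.mp (Ideal.mem_comap.mp h)
    refine Subgroup.mem_bot.mpr (AlgEquiv.ext fun x => Subtype.ext ?_)
    exact (hσg x).symm.trans (hfix σ hσ x)
  have hcard := Ideal.card_inertia_eq_ramificationIdxIn (G := F ≃ₐ[ℚ] F)
    (Ideal.span {(q : ℤ)}) P
  rw [hbot, Subgroup.card_bot, Ideal.ramificationIdxIn_eq_ramificationIdx _ P (F ≃ₐ[ℚ] F)]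
    at hcard
  exact hcard.symm

/-- The values of a finite Galois extension fixed by inertia are integral powers of `|q|`. -/
theorem exists_valuation_eq_zpow {A : ValuationSubring Ω} {q : ℕ} (hq : q.Prime)
    (hA : A.LiesOverPrime q) (F : IntermediateField ℚ Ω) [FiniteDimensional ℚ F] [IsGalois ℚ F]
    (hfix : ∀ σ ∈ A.inertiaSubgroupIn ℚ, ∀ x : F, σ (x : Ω) = x) (x : F) (hx : x ≠ 0) :
    ∃ k : ℤ, A.valuation (x : Ω) = A.valuation (q : Ω) ^ k := by
  have : NumberField F := { to_charZero := inferInstance, to_finiteDimensional := inferInstance }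
  obtain ⟨hover, he⟩ := ramificationIdx_eq_one_of_inertia_fixed hq hA F hfix
  set P : Ideal (𝓞 F) := (placeIdeal A).under (𝓞 F)
  have hq0 : (q : 𝓞 F) ≠ 0 := Nat.cast_ne_zero.mpr hq.ne_zero
  have hqP : (q : 𝓞 F) ∈ P := by
    simp only [P, Ideal.mem_comap, map_natCast, mem_placeIdeal]
    exact hA
  let v : HeightOneSpectrum (𝓞 F) :=
    ⟨P, inferInstance, fun h => hq0 (by simpa [h] using hqP)⟩
  -- `q` is a uniformiser
  have hvq : v.intValuation (q : 𝓞 F) = WithZero.exp (-1 : ℤ) := by
    have hm := Ideal.IsDedekindDomain.ramificationIdx_eq_multiplicity (R := ℤ) (Ideal.span {(q : ℤ)}) P (by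
      rw [Ideal.map_span, Set.image_singleton, map_natCast, Ne, Ideal.span_singleton_eq_bot]
      exact hq0)
    rw [he, Ideal.map_span, Set.image_singleton, map_natCast] at hm
    rw [v.intValuation_eq_exp_neg_multiplicity hq0]
    show WithZero.exp (-(multiplicity P (Ideal.span {(q : 𝓞 F)}) : ℤ)) = _
    rw [← hm]
    rfl
  have hxv : v.valuation F x ≠ 0 := (v.valuation F).ne_zero_iff.mpr hx
  set k : ℤ := -WithZero.log (v.valuation F x) with hk
  have hqF : (q : F) ≠ 0 := Nat.cast_ne_zero.mpr hq.ne_zero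
  set y : F := x / (q : F) ^ k
  have hy : v.valuation F y = 1 := by
    have h1 : v.valuation F (q : F) = WithZero.exp (-1 : ℤ) := by
      rw [← map_natCast (algebraMap (𝓞 F) F), v.valuation_of_algebraMap, hvq]
    rw [map_div₀, map_zpow₀, h1, ← WithZero.exp_zsmul, hk, smul_eq_mul, neg_mul_neg, mul_one,
      WithZero.exp_log hxv, div_self hxv]
  have hle : ∀ z : F, v.valuation F z ≤ 1 → A.valuation (z : Ω) ≤ 1 := by
    intro z hz
    obtain ⟨n, ⟨d, hd⟩, h⟩ := v.exists_primeCompl_mul_eq_of_integer z hz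
    have h' : (z : Ω) * ((d : F) : Ω) = ((n : F) : Ω) := congrArg (fun t : F => (t : Ω)) h
    have hint : ∀ b : 𝓞 F, ((b : F) : Ω) ∈ A := fun b =>
      mem_of_isIntegral_int A (b.isIntegral_coe.map (F.val.restrictScalars ℤ))
    have hd1 : A.valuation ((d : F) : Ω) = 1 := by
      refine le_antisymm ((A.valuation_le_one_iff _).mpr (hint d)) (not_lt.mp fun hh => hd ?_)
      show d ∈ P
      rw [Ideal.mem_comap, mem_placeIdeal]
      exact hh
    have := congrArg A.valuation h'
    rw [map_mul, hd1, mul_one] at this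
    rw [this]
    exact (A.valuation_le_one_iff _).mpr (hint n)
  have hy1 : A.valuation (y : Ω) = 1 := by
    have hy0 : (y : Ω) ≠ 0 := by
      simp [y, hx, hqF, zpow_ne_zero]
    refine le_antisymm (hle y hy.le) ?_
    have := hle y⁻¹ (by rw [map_inv₀, hy, inv_one])
    rw [IntermediateField.coe_inv, map_inv₀] at this
    exact (inv_le_one₀ (A.valuation.pos_iff.mpr hy0)).mp this
  refine ⟨k, ?_⟩
  have hxy : (x : Ω) = (y : Ω) * (q : Ω) ^ k := by
    have : x = y * (q : F) ^ k := (div_mul_cancel₀ x (zpow_ne_zero k hqF)).symm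
    have h2 := congrArg (algebraMap F Ω) this
    rw [map_mul, map_zpow₀, map_natCast] at h2
    exact h2
  rw [hxy, map_mul, hy1, one_mul, map_zpow₀]

/-- A finite set of algebraic numbers stable under the Galois group and fixed by inertia. -/
theorem exists_valuation_eq_zpow_of_stable {A : ValuationSubring Ω} {q : ℕ} (hq : q.Prime)
    (hA : A.LiesOverPrime q) {S : Set Ω} (hS : S.Finite)
    (hstab : ∀ g : G_ℚ, ∀ s ∈ S, g s ∈ S)
    (hfix : ∀ σ ∈ A.inertiaSubgroupIn ℚ, ∀ s ∈ S, σ s = s)
    {x : Ω} (hx : x ∈ IntermediateField.adjoin ℚ S) (hx0 : x ≠ 0) :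
    ∃ k : ℤ, A.valuation x = A.valuation (q : Ω) ^ k := by
  set F := IntermediateField.adjoin ℚ S with hF
  have : Finite S := hS.to_subtype
  have : FiniteDimensional ℚ F :=
    IntermediateField.finiteDimensional_adjoin fun s _ => Algebra.IsIntegral.isIntegral s
  have : IsGalois ℚ F := by
    have : Normal ℚ F := IntermediateField.normal_iff_forall_map_le'.mpr fun g => by
      rw [hF, IntermediateField.adjoin_map]
      exact IntermediateField.adjoin.mono ℚ _ _ (Set.image_subset_iff.mpr fun s hs => hstab g s hs)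
    exact IsGalois.mk
  refine exists_valuation_eq_zpow hq hA F (fun σ hσ y => ?_) ⟨x, hx⟩ (fun h => hx0 ?_)
  · have hle : F ≤ IntermediateField.fixedField (A.inertiaSubgroupIn ℚ) := by
      rw [hF, IntermediateField.adjoin_le_iff]
      intro s hs g
      exact hfix g g.2 s hs
    exact hle y.2 ⟨σ, hσ⟩
  · exact congrArg Subtype.val h

end Fermat.Agent.BigImage
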